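/-
Project ONE MACHINE (S43), block [F], cell (Z8)-FF (a), FUNCTION-FIELD FORM (helper12, insurance twin
of helper19's `twfw_core`): THE TORIC CORE FOR A COMPONENT-SWAPPING FROBENIUS, CONSTANT REDUCTIONS.
Prefix `twfw_ff_`.  Swap twin of `tori_toric_ff` (`S35/Toric/FunField.lean`).

`H : ssm_tp_Hyp π V1 V2` (the two Gauss valuations), `M : ss_Model π x σ σ0 P1 P2` (only its global
fields are used), `τ` an automorphism of `F0`, semilinear over a lift `τ0` of `a ↦ a^Q` on `A0`,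
with `τ 𝔪(V1) ⊆ 𝔪(V2)` and `τ 𝔪(V2) ⊆ 𝔪(V1)`.  For `g` with CONSTANT reductions `k_i ∈ A0ˣ` at the
two valuations:

* `twfw_ff_h4a_one` : `τ g * g^Q * u ≡ 1 mod 𝔪(V)` when `g ≡ k` at `V`, `g ≡ k'` at `V'`,
                      `τ 𝔪(V') ⊆ 𝔪(V)`, `u (k k')^Q = 1`;
* `twfw_ff_core`    : `τ g * g^Q = c · r^m`, the local factorisations [L]-φ being a hypothesis (for
                      the unit `u = ((k1 k2)^Q)⁻¹`; discharged by `twfw_lp_of_const`).

No weak approximation is needed: the reductions are constants, and BOTH components see the SAME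
constant `(k1 k2)^Q` (`τ g ≡ k2^Q`, `g^Q ≡ k1^Q` at `V1`; `τ g ≡ k1^Q`, `g^Q ≡ k2^Q` at `V2`).
-/
import Mathlib
import Fermat.Agent.S35.Toric.FunField
import Fermat.Agent.SS.Model.TwoValW

set_option autoImplicit false
set_option linter.unusedSectionVars false
set_option linter.style.haveILetI false

namespace Fermat.Agent.TW

open Fermat.Agent.SS Fermat.Agent.JT3 Fermat.Agent.S35 AlgebraicCurve

universe v

section H4a

variable {A0 : Type*} [CommRing A0] {F0 : Type v} [Field F0] [Algebra A0 F0]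

/-- one component of (h4a) for the swap: `g ≡ k` at `V`, `g ≡ k'` at `V'`, `τ 𝔪(V') ⊆ 𝔪(V)`
⟹ `τ g * g^Q * u ≡ 1` at `V` for `u (k k')^Q = 1`. -/
theorem twfw_ff_h4a_one (V V' : ValuationSubring F0) (τ : F0 ≃+* F0) (τ0 : A0 → A0) (Q : ℕ)
    (π : A0) (hτbase : ∀ a : A0, τ (algebraMap A0 F0 a) = algebraMap A0 F0 (τ0 a))
    (hτ0 : ∀ a : A0, π ∣ τ0 a - a ^ Q)
    (hA : ∀ a : A0, algebraMap A0 F0 a ∈ V) (hπV : algebraMap A0 F0 π ∈ V.nonunits)
    (hτ : ∀ z : F0, z ∈ V'.nonunits → τ z ∈ V.nonunits)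
    {g : F0} {k k' u : A0} (hu : u * (k * k') ^ Q = 1)
    (hg : g - algebraMap A0 F0 k ∈ V.nonunits) (hg' : g - algebraMap A0 F0 k' ∈ V'.nonunits) :
    τ g * g ^ Q * algebraMap A0 F0 u - 1 ∈ V.nonunits := by
  set K := algebraMap A0 F0 k with hK
  set K' := algebraMap A0 F0 k' with hK'
  have hKV : K ∈ V := hA k
  have hK'V : K' ∈ V := hA k'
  have hgV : g ∈ V := by
    have e : g = (g - K) + K := by ring
    rw [e]
    exact V.add_mem _ _ (ssm_tw_nonunits_le V hg) hKV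
  -- `τ g ≡ K'^Q`
  have h1 : τ g - algebraMap A0 F0 (τ0 k') ∈ V.nonunits := by
    have := hτ _ hg'
    rwa [map_sub, hτbase] at this
  have h2 : algebraMap A0 F0 (τ0 k') - K' ^ Q ∈ V.nonunits := by
    obtain ⟨c, hc⟩ := hτ0 k'
    have e : algebraMap A0 F0 (τ0 k') - K' ^ Q = algebraMap A0 F0 π * algebraMap A0 F0 c := by
      rw [hK', ← map_pow, ← map_sub, hc, map_mul]
    rw [e, mul_comm]
    exact ssm_tw_nonunits_mul V (hA c) hπV
  have h3 : τ g - K' ^ Q ∈ V.nonunits := by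
    have e : τ g - K' ^ Q = (τ g - algebraMap A0 F0 (τ0 k')) +
        (algebraMap A0 F0 (τ0 k') - K' ^ Q) := by ring
    rw [e]
    exact ssm_tw_nonunits_add V h1 h2
  have hτgV : τ g ∈ V := by
    have e : τ g = (τ g - K' ^ Q) + K' ^ Q := by ring
    rw [e]
    exact V.add_mem _ _ (ssm_tw_nonunits_le V h3) (V.pow_mem hK'V Q)
  -- `g^Q ≡ K^Q`
  have h4 : g ^ Q - K ^ Q ∈ V.nonunits := ssm_tw_nonunits_pow_sub V hgV hKV hg Q
  -- the product
  have h5 : τ g * g ^ Q - K' ^ Q * K ^ Q ∈ V.nonunits := by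
    have e : τ g * g ^ Q - K' ^ Q * K ^ Q =
        τ g * (g ^ Q - K ^ Q) + K ^ Q * (τ g - K' ^ Q) := by ring
    rw [e]
    exact ssm_tw_nonunits_add V (ssm_tw_nonunits_mul V hτgV h4)
      (ssm_tw_nonunits_mul V (V.pow_mem hKV Q) h3)
  have h6 : K' ^ Q * K ^ Q * algebraMap A0 F0 u = 1 := by
    rw [hK, hK', ← map_pow, ← map_pow, ← map_mul, ← map_mul, ← mul_pow, mul_comm k' k,
      mul_comm _ u, hu, map_one]
  have e : τ g * g ^ Q * algebraMap A0 F0 u - 1 =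
      algebraMap A0 F0 u * (τ g * g ^ Q - K' ^ Q * K ^ Q) := by
    rw [← h6]
    ring
  rw [e]
  exact ssm_tw_nonunits_mul V (hA u) h5

end H4a

section FunField

open IntermediateField

variable {A0 L : Type*} {F0 : Type v} [CommRing A0] [IsDomain A0] [IsDiscreteValuationRing A0]
  [Field L] [Field F0] [Algebra A0 L] [IsFractionRing A0 L] [Algebra L F0] [Algebra A0 F0]
  [IsScalarTower A0 L F0]

/-- **The toric core for a component-swapping Frobenius, function-field case, valuation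
language.** -/
theorem twfw_ff_core {π : A0} (hπ : Irreducible π) {x : F0} (hx : Transcendental L x)
    {V1 V2 : ValuationSubring F0}
    (H : ssm_tp_Hyp (algebraMap A0 (Algebra.adjoin A0 ({x} : Set F0)) π) V1 V2)
    {σ : F0 ≃+* F0} {σ0 : A0 ≃+* A0}
    (M : ss_Model π x σ σ0 (ssm_tp_P (fc_chart A0 ({x, x⁻¹} : Set F0)) V1)
      (ssm_tp_P (fc_chart A0 ({x, x⁻¹} : Set F0)) V2))
    (τ : F0 ≃+* F0) (τ0 : A0 → A0) (Q : ℕ)
    (hτbase : ∀ a : A0, τ (algebraMap A0 F0 a) = algebraMap A0 F0 (τ0 a))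
    (hτ0 : ∀ a : A0, π ∣ τ0 a - a ^ Q)
    (hτV12 : ∀ z : F0, z ∈ V1.nonunits → τ z ∈ V2.nonunits)
    (hτV21 : ∀ z : F0, z ∈ V2.nonunits → τ z ∈ V1.nonunits)
    (m : ℕ) (hm : IsUnit (m : A0)) {g : F0}
    {k1 k2 : A0} (hk1 : IsUnit k1) (hk2 : IsUnit k2)
    (hg1 : g - algebraMap A0 F0 k1 ∈ V1.nonunits)
    (hg2 : g - algebraMap A0 F0 k2 ∈ V2.nonunits)
    (hL : ∀ u : A0, IsUnit u →
      τ g * g ^ Q * algebraMap A0 F0 u - 1 ∈
        sfc_piO (fc_chart A0 ({x, x⁻¹} : Set F0)).toSubring (algebraMap A0 F0 π) →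
      tori_LocAt π m (τ g * g ^ Q * algebraMap A0 F0 u) (fc_chart A0 ({x} : Set F0)) ∧
        tori_LocAt π m (τ g * g ^ Q * algebraMap A0 F0 u) (fc_chart A0 ({x⁻¹} : Set F0))) :
    ∃ (c : A0) (r : F0), r ≠ 0 ∧ τ g * g ^ Q = algebraMap A0 F0 c * r ^ m := by
  have hxA : Transcendental A0 x := fc_ff_transcendental (L := L) hx
  haveI : IsIntegrallyClosed (Algebra.adjoin A0 ({x} : Set F0)) := fc_ff_isIntegrallyClosed hxA
  haveI : FaithfulSMul (Algebra.adjoin A0 ({x} : Set F0)) F0 :=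
    (faithfulSMul_iff_algebraMap_injective _ _).2 Subtype.val_injective
  have hC := ssm_tp_ff_chart12 (L := L) hπ hx
  haveI := M.isAlg
  obtain ⟨u, hu⟩ : ∃ u : A0, u * (k1 * k2) ^ Q = 1 :=
    IsUnit.exists_left_inv ((hk1.mul hk2).pow Q)
  have huU : IsUnit u := IsUnit.of_mul_eq_one _ hu
  have hA1 : ∀ a : A0, algebraMap A0 F0 a ∈ V1 := fun a =>
    hC.le H.over1 (Subalgebra.algebraMap_mem _ a)
  have hA2 : ∀ a : A0, algebraMap A0 F0 a ∈ V2 := fun a =>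
    hC.le H.over2 (Subalgebra.algebraMap_mem _ a)
  have h1 : τ g * g ^ Q * algebraMap A0 F0 u - 1 ∈ V1.nonunits :=
    twfw_ff_h4a_one V1 V2 τ τ0 Q π hτbase hτ0 hA1 H.over1.pi_mem hτV21 hu hg1 hg2
  have h2 : τ g * g ^ Q * algebraMap A0 F0 u - 1 ∈ V2.nonunits :=
    twfw_ff_h4a_one V2 V1 τ τ0 Q π hτbase hτ0 hA2 H.over2.pi_mem hτV12
      (by rwa [mul_comm k2 k1]) hg2 hg1
  have h4a : τ g * g ^ Q * algebraMap A0 F0 u - 1 ∈
      sfc_piO (fc_chart A0 ({x, x⁻¹} : Set F0)).toSubring (algebraMap A0 F0 π) :=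
    (H.mem_piO_iff hC).2 ⟨h1, h2⟩
  obtain ⟨hloc1, hloc2⟩ := hL u huU h4a
  obtain ⟨c, r, hr0, hf⟩ := sfc_main π M.hxS1.2.1 m hm (τ g * g ^ Q * algebraMap A0 F0 u)
    M.hfin1 M.hnu M.hxS1 M.hxS2 hloc1 hloc2 h4a M.hH0
  refine ⟨c * (k1 * k2) ^ Q, r, hr0, ?_⟩
  have e : algebraMap A0 F0 u * algebraMap A0 F0 ((k1 * k2) ^ Q) = 1 := by
    rw [← map_mul, hu, map_one]
  calc τ g * g ^ Q
      = (τ g * g ^ Q * algebraMap A0 F0 u) * algebraMap A0 F0 ((k1 * k2) ^ Q) := by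
        rw [mul_assoc (τ g * g ^ Q), e, mul_one]
    _ = algebraMap A0 F0 (c * (k1 * k2) ^ Q) * r ^ m := by
        rw [hf, map_mul]
        ring

end FunField

end Fermat.Agent.TW
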