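/-
Project ONE MACHINE (S43), block [F], cell (Z8)-FF (c) (helper12): THE FROBENIUS CONGRUENCE AT THE
NODES FOR THE SWAP `τ = W ∘ Φ`, `Q = q`.  Prefix `twfw_nf_`.  Twin of `S35/NodeFrob/{Abstract,Tower,Leg}`.

`φ : B' →+* B` (chart of level `N'` into the chart of level `N' q`), `P1 P2` the two vertical primes
of `B`, `W` the Atkin–Lehner involution of `B` (`W P1 ⊆ P2`), `τ`, `τ'` the coefficientwise actions
of a Frobenius lift on `B`, `B'` (`τ ∘ φ = φ ∘ τ'`, `τ P1 ⊆ P1`).  From the Frobenius congruence on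
the first component `W (φ (τ' c)) ≡ (φ c)^q mod P1` and `B = φ B' + P1`:

  `W (τ b) ≡ b ^ q  mod 𝔫`   for every prime `𝔫 ⊇ P1 + P2` and every `b : B`   (`twfw_nf_node`),

hence `(W ∘ τ) 𝔫 ⊆ 𝔫` (`twfw_nf_node_stable`), `↔` for maximal `𝔫` (`twfw_nf_node_stable_iff`).
Then the Gauss tower (`twfw_nf_tower`, binders of `s35nf_tower` VERBATIM) and the Legendre tower
(`twfw_nf_leg`, binders of `s35nf_leg` VERBATIM).
-/
import Mathlib
import Fermat.Agent.S35.NodeFrob.Leg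

set_option autoImplicit false
set_option linter.unusedSectionVars false
set_option linter.unusedVariables false
set_option linter.style.haveILetI false

noncomputable section

open ModularCurve IntermediateField IsLocalRing Polynomial
open Fermat.Agent.JT3 Fermat.Agent.SS Fermat.Agent.S35

namespace Fermat.Agent.TW

/-! ### the abstract core -/

section Abstract

variable {B' B : Type*} [CommRing B'] [CommRing B]

/-- **[FROB-N] for the swap, abstract form**: `W (τ b) ≡ b ^ q` modulo every prime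
`𝔫 ⊇ P1 + P2`. -/
theorem twfw_nf_node (φ : B' →+* B) (W τ : B →+* B) (τ' : B' →+* B') (P1 P2 𝔫 : Ideal B) (q : ℕ)
    (hτφ : ∀ c, τ (φ c) = φ (τ' c)) (hτP1 : ∀ z ∈ P1, τ z ∈ P1)
    (hWP1 : ∀ z ∈ P1, W z ∈ P2)
    (hfrob : ∀ c : B', W (φ (τ' c)) - φ c ^ q ∈ P1)
    (hadd : ∀ b : B, ∃ c : B', b - φ c ∈ P1)
    (h1 : P1 ≤ 𝔫) (h2 : P2 ≤ 𝔫) (b : B) :
    W (τ b) - b ^ q ∈ 𝔫 := by
  obtain ⟨c, hc⟩ := hadd b
  have hA : W (τ b) - W (φ (τ' c)) ∈ 𝔫 := by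
    have h := hWP1 _ (hτP1 _ hc)
    rw [map_sub, map_sub, hτφ] at h
    exact h2 h
  have hB : W (φ (τ' c)) - φ c ^ q ∈ 𝔫 := h1 (hfrob c)
  have hC : φ c ^ q - b ^ q ∈ 𝔫 := by
    have h : φ c - b ∈ P1 := by
      have := P1.neg_mem hc
      rwa [neg_sub] at this
    exact h1 (s35nf_pow_sub_pow_mem P1 h q)
  have e : W (τ b) - b ^ q =
      (W (τ b) - W (φ (τ' c))) + (W (φ (τ' c)) - φ c ^ q) + (φ c ^ q - b ^ q) := by
    ring
  rw [e]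
  exact 𝔫.add_mem (𝔫.add_mem hA hB) hC

/-- **the crossing points are stable under `W ∘ τ`.** -/
theorem twfw_nf_node_stable (φ : B' →+* B) (W τ : B →+* B) (τ' : B' →+* B') (P1 P2 𝔫 : Ideal B)
    (q : ℕ) (hq : q ≠ 0)
    (hτφ : ∀ c, τ (φ c) = φ (τ' c)) (hτP1 : ∀ z ∈ P1, τ z ∈ P1)
    (hWP1 : ∀ z ∈ P1, W z ∈ P2)
    (hfrob : ∀ c : B', W (φ (τ' c)) - φ c ^ q ∈ P1)
    (hadd : ∀ b : B, ∃ c : B', b - φ c ∈ P1)
    (h1 : P1 ≤ 𝔫) (h2 : P2 ≤ 𝔫) {z : B} (hz : z ∈ 𝔫) : W (τ z) ∈ 𝔫 := by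
  have h := twfw_nf_node φ W τ τ' P1 P2 𝔫 q hτφ hτP1 hWP1 hfrob hadd h1 h2 z
  have hz' : z ^ q ∈ 𝔫 := 𝔫.pow_mem_of_mem hz _ (Nat.pos_of_ne_zero hq)
  have e : W (τ z) = (W (τ z) - z ^ q) + z ^ q := by ring
  rw [e]
  exact 𝔫.add_mem h hz'

/-- for a MAXIMAL crossing point: `W (τ z) ∈ 𝔫 ↔ z ∈ 𝔫`. -/
theorem twfw_nf_node_stable_iff (φ : B' →+* B) (W τ : B →+* B) (τ' : B' →+* B')
    (P1 P2 𝔫 : Ideal B) (h𝔫 : 𝔫.IsMaximal) (q : ℕ) (hq : q ≠ 0)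
    (hτφ : ∀ c, τ (φ c) = φ (τ' c)) (hτP1 : ∀ z ∈ P1, τ z ∈ P1)
    (hWP1 : ∀ z ∈ P1, W z ∈ P2)
    (hfrob : ∀ c : B', W (φ (τ' c)) - φ c ^ q ∈ P1)
    (hadd : ∀ b : B, ∃ c : B', b - φ c ∈ P1)
    (h1 : P1 ≤ 𝔫) (h2 : P2 ≤ 𝔫) (z : B) : W (τ z) ∈ 𝔫 ↔ z ∈ 𝔫 := by
  refine ⟨fun h => ?_, fun h =>
    twfw_nf_node_stable φ W τ τ' P1 P2 𝔫 q hq hτφ hτP1 hWP1 hfrob hadd h1 h2 h⟩
  let τ2 : B →+* B := W.comp τ
  have hle : 𝔫 ≤ 𝔫.comap τ2 := fun w hw =>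
    twfw_nf_node_stable φ W τ τ' P1 P2 𝔫 q hq hτφ hτP1 hWP1 hfrob hadd h1 h2 hw
  have hne : 𝔫.comap τ2 ≠ ⊤ := by
    haveI := h𝔫.isPrime
    exact (Ideal.IsPrime.comap τ2).ne_top
  have heq := h𝔫.eq_of_le hne hle
  rw [heq]
  exact h

end Abstract

/-! ### the Gauss tower -/

section Tower

variable {L : Type*} [Field L] [CharZero L] (O : ValuationSubring L)
  [IsDiscreteValuationRing O] {π : O} (hπ : Irreducible π)
variable (q : ℕ) [NeZero q] [hq : Fact q.Prime] [CharP (ResidueField O) q]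
variable (E' E : IntermediateField L (LaurentSeries L)) (hle : E' ≤ E)
  (hE : E ≤ gq_quotField O L)

set_option synthInstance.maxHeartbeats 200000 in
set_option maxHeartbeats 1600000 in
/-- **[FROB-N] for the swap, tower of Laurent-series fields** (binders of `s35nf_tower`): at every
maximal crossing point `𝔫` of the chart `B = fc_chart O {ι λ'}`, `W (σ_E b) ≡ b^q` for all `b ∈ B`,
and `(W ∘ σ_E) 𝔫 = 𝔫`. -/
theorem twfw_nf_tower (W : ↥E ≃+* ↥E) (hWW : ∀ x, W (W x) = x)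
    (hW : ∀ z : ↥E', ((W (IntermediateField.inclusion hle z) : ↥E) : LaurentSeries L) =
      qExpand L q (z : LaurentSeries L))
    (hrank : IntermediateField.relfinrank E' E = q + 1)
    (y : LaurentSeries O) (hyF : ssm_ga_FrobFixed q y) (n : ℤ) (hn : ¬ (q : ℤ) ∣ n)
    (hyn : residue O (y.coeff n) ≠ 0) (lam' : ↥E')
    (hlam : (lam' : LaurentSeries L) = coeffMap (algebraMap O L) y)
    [FiniteDimensional L⟮lam'⟯ ↥E']
    [FiniteDimensional L⟮IntermediateField.inclusion hle lam'⟯ ↥E]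
    (hprime : Prime (algebraMap ↥O (fc_chart ↥O ({lam'} : Set ↥E')) π))
    (hic : IsIntegrallyClosed (fc_chart ↥O ({lam'} : Set ↥E') ⧸
      (Ideal.span {algebraMap ↥O (fc_chart ↥O ({lam'} : Set ↥E')) π} :
        Ideal (fc_chart ↥O ({lam'} : Set ↥E')))))
    (hWB : ∀ b ∈ fc_chart ↥O ({IntermediateField.inclusion hle lam'} : Set ↥E),
      W b ∈ fc_chart ↥O ({IntermediateField.inclusion hle lam'} : Set ↥E))
    -- the Frobenius lift
    (σ : L ≃+* L) (hσ : s35nf_FrobAt O σ q)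
    (σE' : ↥E' →+* ↥E')
    (hσE' : ∀ z : ↥E', ((σE' z : ↥E') : LaurentSeries L) =
      coeffMap (σ : L →+* L) (z : LaurentSeries L))
    (σE : ↥E →+* ↥E)
    (hσE : ∀ z : ↥E, ((σE z : ↥E) : LaurentSeries L) =
      coeffMap (σ : L →+* L) (z : LaurentSeries L))
    (hσlam : σE' lam' = lam')
    (𝔫 : Ideal (fc_chart ↥O ({IntermediateField.inclusion hle lam'} : Set ↥E)))
    (h𝔫 : 𝔫.IsMaximal)
    (hP1 : ssm_tp_P (fc_chart ↥O ({IntermediateField.inclusion hle lam'} : Set ↥E))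
      (gq_valSubOf π hπ.ne_zero hπ.maximalIdeal_eq E hE) ≤ 𝔫)
    (hP2 : ssm_tp_P (fc_chart ↥O ({IntermediateField.inclusion hle lam'} : Set ↥E))
      ((gq_valSubOf π hπ.ne_zero hπ.maximalIdeal_eq E hE).comap (W : ↥E →+* ↥E)) ≤ 𝔫) :
    (∀ b : fc_chart ↥O ({IntermediateField.inclusion hle lam'} : Set ↥E),
      ∃ m ∈ 𝔫, ((m : fc_chart ↥O ({IntermediateField.inclusion hle lam'} : Set ↥E)) : ↥E) =
        W (σE (b : ↥E)) - (b : ↥E) ^ q) ∧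
    (∀ z : fc_chart ↥O ({IntermediateField.inclusion hle lam'} : Set ↥E),
      (∃ m ∈ 𝔫, ((m : fc_chart ↥O ({IntermediateField.inclusion hle lam'} : Set ↥E)) : ↥E) =
        W (σE (z : ↥E))) ↔ z ∈ 𝔫) := by
  letI := ssm_gi_algebra hle
  letI := ssm_gi_algebraV hle (gq_valSubOf π hπ.ne_zero hπ.maximalIdeal_eq E' (hle.trans hE))
  haveI := ssm_gi_isScalarTower hle
    (gq_valSubOf π hπ.ne_zero hπ.maximalIdeal_eq E' (hle.trans hE))
  have hfr : Module.finrank ↥E' ↥E = q + 1 := (ssm_gt_finrank_eq hle).trans hrank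
  haveI : FiniteDimensional ↥E' ↥E := ssm_gi_finiteDimensional hfr
  haveI : Algebra.IsSeparable ↥E' ↥E := ssm_gi_isSeparable
  haveI := ssm_go_isScalarTower O E
  haveI := ssm_go_isScalarTower O E'
  haveI := ssm_gt_isScalarTower O hle
  have hn0 : n ≠ 0 := by
    rintro rfl
    exact hn (dvd_zero _)
  have D := ssm_gt_data O hπ q E' E hle hE W hWW hW hrank y hyF n hn hyn lam' hlam
  have hx : Transcendental L lam' := ssm_go_transcendental O E' y lam' hlam hn0 hyn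
  have hxE : Transcendental L (algebraMap ↥E' ↥E lam') :=
    ssm_go_transcendental O E y (IntermediateField.inclusion hle lam') hlam hn0 hyn
  have H := ssm_gt_hyp O hπ q E' E hle hE W hWW hW hrank y hyF n hn hyn lam' hlam hprime
  obtain ⟨hadd, -, -⟩ := ssm_cpi_ff (L := L) (y := lam') D hπ hx hxE hprime hic
    (gq_valSubOf π hπ.ne_zero hπ.maximalIdeal_eq E' (hle.trans hE))
    (fun z => (ssm_gi_mem_range _ z).symm)
    (ssm_go_over O E' y lam' hlam hπ (hle.trans hE) hn0 hyn) H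
  have hC := ssm_tp_ff_chart (L := L) hπ hxE
  haveI : IsIntegrallyClosed (Algebra.adjoin ↥O ({algebraMap ↥E' ↥E lam'} : Set ↥E)) :=
    fc_ff_isIntegrallyClosed (fc_ff_transcendental (L := L) hxE)
  haveI : FaithfulSMul (Algebra.adjoin ↥O ({algebraMap ↥E' ↥E lam'} : Set ↥E)) ↥E :=
    (faithfulSMul_iff_algebraMap_injective _ _).2 Subtype.val_injective
  -- abbreviations
  set B := fc_chart ↥O ({algebraMap ↥E' ↥E lam'} : Set ↥E) with hB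
  set V1 := gq_valSubOf π hπ.ne_zero hπ.maximalIdeal_eq E hE with hV1
  have le1 : ∀ b ∈ B, b ∈ V1 := fun b hb => hC.le H.over1 hb
  have le2 : ∀ b ∈ B, b ∈ V1.comap (W : ↥E →+* ↥E) := fun b hb => hC.le H.over2 hb
  -- `σ_E ∘ ι = ι ∘ σ_{E'}`
  have hσι : ∀ z : ↥E', σE (algebraMap ↥E' ↥E z) = algebraMap ↥E' ↥E (σE' z) := by
    intro z
    apply Subtype.ext
    rw [hσE]
    exact (hσE' z).symm
  have hσx : σE (algebraMap ↥E' ↥E lam') = algebraMap ↥E' ↥E lam' := by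
    rw [hσι, hσlam]
  -- the three restricted endomorphisms
  have hσB : ∀ b ∈ B, σE b ∈ B := fun b hb =>
    s35nf_tower_mem_chart O q E σ hσ σE hσE _ (fun s hs => by
      rw [Set.mem_singleton_iff] at hs
      rw [hs]
      exact hσx) hb
  have hσB' : ∀ b ∈ fc_chart ↥O ({lam'} : Set ↥E'), σE' b ∈ fc_chart ↥O ({lam'} : Set ↥E') :=
    fun b hb => s35nf_tower_mem_chart O q E' σ hσ σE' hσE' _ (fun s hs => by
      rw [Set.mem_singleton_iff] at hs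
      rw [hs]
      exact hσlam) hb
  let τ : B →+* B := RingHom.restrict σE B B hσB
  let τ' : fc_chart ↥O ({lam'} : Set ↥E') →+* fc_chart ↥O ({lam'} : Set ↥E') :=
    RingHom.restrict σE' _ _ hσB'
  let WB : B →+* B := RingHom.restrict (W : ↥E →+* ↥E) B B hWB
  have hτc : ∀ b : B, ((τ b : B) : ↥E) = σE (b : ↥E) := fun _ => rfl
  have hτ'c : ∀ b : fc_chart ↥O ({lam'} : Set ↥E'),
      ((τ' b : fc_chart ↥O ({lam'} : Set ↥E')) : ↥E') = σE' (b : ↥E') := fun _ => rfl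
  have hWBc : ∀ b : B, ((WB b : B) : ↥E) = W (b : ↥E) := fun _ => rfl
  -- the hypotheses of the abstract lemma
  have hτφ : ∀ c, τ (ssm_cpi_phi ↥O ↥E lam' c) = ssm_cpi_phi ↥O ↥E lam' (τ' c) := by
    intro c
    apply Subtype.ext
    rw [hτc, ssm_cpi_phi_coe, ssm_cpi_phi_coe, hτ'c]
    exact hσι _
  have hτP1 : ∀ z ∈ ssm_tp_P B V1, τ z ∈ ssm_tp_P B V1 := by
    intro z hz
    rw [ssm_tp_mem_P le1] at hz ⊢
    rw [hτc]
    exact s35nf_mem_nonunits π hπ.ne_zero hπ.maximalIdeal_eq E hE hσ _ _ (hσE _) hz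
  have hWP1 : ∀ z ∈ ssm_tp_P B V1, WB z ∈ ssm_tp_P B (V1.comap (W : ↥E →+* ↥E)) := by
    intro z hz
    rw [ssm_tp_mem_P le1] at hz
    rw [ssm_tp_mem_P le2, ssm_tw_nonunits_comap, hWBc, hWW]
    exact hz
  have hfrob : ∀ c : fc_chart ↥O ({lam'} : Set ↥E'),
      WB (ssm_cpi_phi ↥O ↥E lam' (τ' c)) - ssm_cpi_phi ↥O ↥E lam' c ^ q ∈ ssm_tp_P B V1 := by
    intro c
    rw [ssm_tp_mem_P le1]
    have hcV : ((ssm_cpi_phi ↥O ↥E lam' c : B) : ↥E) ∈ V1 := le1 _ (ssm_cpi_phi ↥O ↥E lam' c).2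
    have h := s35nf_frob_mem_nonunits π hπ.ne_zero hπ.maximalIdeal_eq E hE hσ
      ((ssm_cpi_phi ↥O ↥E lam' c : B) : ↥E)
      ((WB (ssm_cpi_phi ↥O ↥E lam' (τ' c)) : B) : ↥E) ?_ hcV
    · exact h
    · rw [hWBc, ssm_cpi_phi_coe, hτ'c]
      have h1 := hW (σE' (c : ↥E'))
      rw [hσE'] at h1
      exact h1
  have key := fun b => twfw_nf_node (ssm_cpi_phi ↥O ↥E lam') WB τ τ' (ssm_tp_P B V1)
    (ssm_tp_P B (V1.comap (W : ↥E →+* ↥E))) 𝔫 q hτφ hτP1 hWP1 hfrob hadd hP1 hP2 b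
  have keyiff := fun z => twfw_nf_node_stable_iff (ssm_cpi_phi ↥O ↥E lam') WB τ τ'
    (ssm_tp_P B V1) (ssm_tp_P B (V1.comap (W : ↥E →+* ↥E))) 𝔫 h𝔫 q (NeZero.ne q) hτφ hτP1 hWP1
    hfrob hadd hP1 hP2 z
  refine ⟨fun b => ⟨_, key b, rfl⟩, fun z => ⟨?_, fun hz => ⟨_, (keyiff z).2 hz, rfl⟩⟩⟩
  rintro ⟨m, hm, hmz⟩
  refine (keyiff z).1 ?_
  have : WB (τ z) = m := Subtype.ext hmz.symm
  rw [this]
  exact hm

end Tower

/-! ### the Legendre tower -/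

section Legendre

variable {L : Type*} [Field L] [CharZero L] [Algebra L (AlgebraicClosure ℚ)]
  (O : ValuationSubring L) [IsDiscreteValuationRing O] {π : O} (hπ : Irreducible π)
variable (N' q : ℕ) [NeZero N'] [NeZero q] [hq : Fact q.Prime] [CharP (ResidueField O) q]
  (hq2 : ¬ 2 ∣ q) (hqN' : ¬ q ∣ N')

set_option synthInstance.maxHeartbeats 200000 in
set_option maxHeartbeats 1600000 in
/-- **[FROB-N] for the swap, Legendre tower** (binders of `s35nf_leg`): at every maximal crossing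
point `𝔫 ⊇ P1 + P2` of `B_λ`:  `W (σ_E b) ≡ b^q mod 𝔫` for all `b ∈ B_λ`, and `(W σ_E) 𝔫 = 𝔫`. -/
theorem twfw_nf_leg
    (hprime : Prime (algebraMap ↥O (fc_chart ↥O ({lg_lamE N'} : Set ↥(lg_E L N'))) π))
    (hic : IsIntegrallyClosed (fc_chart ↥O ({lg_lamE N'} : Set ↥(lg_E L N')) ⧸
      (Ideal.span {algebraMap ↥O (fc_chart ↥O ({lg_lamE N'} : Set ↥(lg_E L N'))) π} :
        Ideal (fc_chart ↥O ({lg_lamE N'} : Set ↥(lg_E L N'))))))
    (F : ssm_i1_Facts ↥O q (lg_lamE (N' * q) : ↥(lg_E L (N' * q)))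
      (ssm_gl_W L N' q hq2 hqN' (lg_lamE (N' * q))) (ssm_gl_V1 O hπ N' q)
      (ssm_gl_V2 O hπ N' q hq2 hqN'))
    (σ : L ≃+* L) (hσ : s35nf_FrobAt O σ q)
    (𝔫 : Ideal (fc_chart ↥O ({lg_lamE (N' * q)} : Set ↥(lg_E L (N' * q))))) (h𝔫 : 𝔫.IsMaximal)
    (hP1 : ssm_tp_P (fc_chart ↥O ({lg_lamE (N' * q)} : Set ↥(lg_E L (N' * q))))
      (ssm_gl_V1 O hπ N' q) ≤ 𝔫)
    (hP2 : ssm_tp_P (fc_chart ↥O ({lg_lamE (N' * q)} : Set ↥(lg_E L (N' * q))))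
      (ssm_gl_V2 O hπ N' q hq2 hqN') ≤ 𝔫) :
    (∀ b : fc_chart ↥O ({lg_lamE (N' * q)} : Set ↥(lg_E L (N' * q))),
      ∃ m ∈ 𝔫, ((m : fc_chart ↥O ({lg_lamE (N' * q)} : Set ↥(lg_E L (N' * q)))) :
          ↥(lg_E L (N' * q))) =
        ssm_gl_W L N' q hq2 hqN' (ssm_sg_aut (N' * q) σ (b : ↥(lg_E L (N' * q)))) -
          (b : ↥(lg_E L (N' * q))) ^ q) ∧
    (∀ z : fc_chart ↥O ({lg_lamE (N' * q)} : Set ↥(lg_E L (N' * q))),
      (∃ m ∈ 𝔫, ((m : fc_chart ↥O ({lg_lamE (N' * q)} : Set ↥(lg_E L (N' * q)))) :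
          ↥(lg_E L (N' * q))) =
        ssm_gl_W L N' q hq2 hqN' (ssm_sg_aut (N' * q) σ (z : ↥(lg_E L (N' * q))))) ↔ z ∈ 𝔫) := by
  haveI := lgf_finite L N'
  haveI : FiniteDimensional
      L⟮IntermediateField.inclusion (ssm_al_E_le L N' q) (lg_lamE N')⟯ ↥(lg_E L (N' * q)) :=
    lgf_finite L (N' * q)
  have hWA : ∀ a : ↥O, ssm_gl_W L N' q hq2 hqN' (algebraMap ↥O ↥(lg_E L (N' * q)) a) =
      algebraMap ↥O ↥(lg_E L (N' * q)) a := fun a =>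
    (ssm_al_WE L N' q hq.out hq2 hqN').commutes (a : L)
  obtain ⟨hWB, -, -⟩ := ssm_i1_W_charts (ssm_gl_W L N' q hq2 hqN') hWA rfl F
  exact twfw_nf_tower O hπ q (lg_E L N') (lg_E L (N' * q)) (ssm_al_E_le L N' q)
    (ssm_ga_E_le_quotField O (N' * q)) (ssm_gl_W L N' q hq2 hqN')
    (ssm_al_WE_WE L N' q hq.out hq2 hqN')
    (fun z => ssm_al_coe_WE_of_mem L N' q hq.out hq2 hqN' z.2 _)
    (ssm_al_relfinrank_E L N' q hq.out hq2 hqN') (hm_lam O) (ssm_ga_lam_frobFixed O q) 1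
    (ssm_gl_not_dvd_one q) (ssm_ga_lam_coeff_one O (ssm_gl_two_ne_zero O q hq2)) (lg_lamE N')
    (hm_coeffMap_lam _).symm hprime hic hWB σ hσ
    (ssm_sg_aut N' σ : ↥(lg_E L N') →+* ↥(lg_E L N')) (fun _ => rfl)
    (ssm_sg_aut (N' * q) σ : ↥(lg_E L (N' * q)) →+* ↥(lg_E L (N' * q))) (fun _ => rfl)
    (ssm_sg_aut_lam N' σ) 𝔫 h𝔫 hP1 hP2

end Legendre

end Fermat.Agent.TW

end
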