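/-
Project ONE MACHINE (S43), block [F], cell (Z8)-FF (d) (helper12): THE LEGENDRE INSTANCE OF THE SWAP
`τ_W = W ∘ Φ`, `Q = q`.  Prefix `twfw_lg_`.  Twin of `S35/TauInst/{Abstract,Leg}`.

`(L, O, π)` any base of residue characteristic `q`, `σ` a Frobenius lift at `O`
(`s35nf_FrobAt O σ q`), `Φ = ssm_sg_aut (N' q) σ` (coefficientwise action on `E = lg_E L (N' q)`),
`W = ssm_gl_W L N' q hq2 hqN'` (Atkin–Lehner), `τ_W := twfw_lg_tau = Φ.trans W` (`z ↦ W (Φ z)`),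
`τ0 := s35nf_base hσ` on `O`, `Q = q`:

* `twfw_lg_base`, `twfw_lg_baseL`, `twfw_lg_tau0_dvd`, `twfw_lg_x` : `τ_W` is semilinear over `τ0`
  (over `σ` on `L`), `τ0 a ≡ a^q mod π`, `τ_W λ = W λ` (NOT `λ`: the charts are preserved because
  `W` preserves them, `ssm_i1_W_charts`);
* `twfw_lg_chart1`, `twfw_lg_chart2`, `twfw_lg_chart12` : `τ_W z ∈ B ↔ z ∈ B` for the three charts;
* `twfw_lg_V12`, `twfw_lg_V21`, `twfw_lg_V12m`, `twfw_lg_V21m` : `τ_W` SWAPS the two Gauss valuation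
  rings and their maximal ideals (`↔`);
* `twfw_lg_P12_of`, `twfw_lg_P21_of` and the instances on the three charts : `τ_W` SWAPS the two
  vertical primes `P_i = ssm_tp_P B V_i`;
* `twfw_lg_node`, `twfw_lg_frobAt` : at every maximal crossing point `𝔫 ⊇ P1 + P2` of `B_λ`:
  `τ_B⁻¹ 𝔫 = 𝔫`, `τ_B b - b^q ∈ 𝔫`, hence `s35l_FrobAt τ_W q 𝔫`.
-/
import Mathlib
import Fermat.Agent.S35.TauInst.Leg
import Fermat.Agent.S35.ToricInst.NodeOf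
import Fermat.Agent.TW.Easy.ToricW.NodeFrobW

set_option autoImplicit false
set_option linter.unusedSectionVars false
set_option linter.unusedVariables false
set_option linter.style.haveILetI false

noncomputable section

open ModularCurve IntermediateField IsLocalRing Polynomial
open Fermat.Agent.JT3 Fermat.Agent.SS Fermat.Agent.S35

namespace Fermat.Agent.TW

/-! ### valuation rings: the swap -/

section Val

variable {E : Type*} [Field E] (σ W : E ≃+* E) (V : ValuationSubring E)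

/-- `W (σ z) ∈ V ↔ z ∈ V.comap W` when `W` commutes with `σ` and `σ` preserves `V`. -/
theorem twfw_lg_swap_mem12 (hcomm : ∀ z, W (σ z) = σ (W z)) (hσ : ∀ z, σ z ∈ V ↔ z ∈ V) (z : E) :
    (σ.trans W) z ∈ V ↔ z ∈ V.comap (W : E →+* E) := by
  rw [ValuationSubring.mem_comap]
  show W (σ z) ∈ V ↔ W z ∈ V
  rw [hcomm]
  exact hσ (W z)

/-- `W (σ z) ∈ V.comap W ↔ z ∈ V` when `W` is an involution and `σ` preserves `V`. -/
theorem twfw_lg_swap_mem21 (hWW : ∀ x, W (W x) = x) (hσ : ∀ z, σ z ∈ V ↔ z ∈ V) (z : E) :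
    (σ.trans W) z ∈ V.comap (W : E →+* E) ↔ z ∈ V := by
  rw [ValuationSubring.mem_comap]
  show W (W (σ z)) ∈ V ↔ z ∈ V
  rw [hWW]
  exact hσ z

theorem twfw_lg_swap_nonunits12 (hcomm : ∀ z, W (σ z) = σ (W z))
    (hσ : ∀ z, σ z ∈ V.nonunits ↔ z ∈ V.nonunits) (z : E) :
    (σ.trans W) z ∈ V.nonunits ↔ z ∈ (V.comap (W : E →+* E)).nonunits := by
  rw [ssm_tw_nonunits_comap]
  show W (σ z) ∈ V.nonunits ↔ W z ∈ V.nonunits
  rw [hcomm]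
  exact hσ (W z)

theorem twfw_lg_swap_nonunits21 (hWW : ∀ x, W (W x) = x)
    (hσ : ∀ z, σ z ∈ V.nonunits ↔ z ∈ V.nonunits) (z : E) :
    (σ.trans W) z ∈ (V.comap (W : E →+* E)).nonunits ↔ z ∈ V.nonunits := by
  rw [ssm_tw_nonunits_comap]
  show W (W (σ z)) ∈ V.nonunits ↔ z ∈ V.nonunits
  rw [hWW]
  exact hσ z

end Val

/-! ### vertical primes: the swap -/

section Chart

universe v

variable {A0 : Type*} [CommRing A0] {F0 : Type v} [Field F0] [Algebra A0 F0] (τ : F0 ≃+* F0)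

/-- an automorphism preserving the subalgebra `B` and mapping `𝔪(V)` ONTO `𝔪(V')` maps the vertical
prime `ssm_tp_P B V` onto `ssm_tp_P B V'`. -/
theorem twfw_lg_P_swap (B : Subalgebra A0 F0) (V V' : ValuationSubring F0)
    (hτB : ∀ z, τ z ∈ B ↔ z ∈ B) (hτV : ∀ z, τ z ∈ V'.nonunits ↔ z ∈ V.nonunits)
    (b b' : B) (h : (b' : F0) = τ (b : F0)) : b' ∈ ssm_tp_P B V' ↔ b ∈ ssm_tp_P B V := by
  constructor
  · intro hb' c
    have hc : τ (c : F0) ∈ B := (hτB _).2 c.2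
    have := hb' ⟨τ (c : F0), hc⟩
    rw [h] at this
    have e : ((⟨τ (c : F0), hc⟩ : B) : F0) * τ (b : F0) = τ ((c : F0) * (b : F0)) := by
      rw [map_mul]
    rw [e] at this
    exact (hτV _).1 this
  · intro hb c
    have hc : τ.symm (c : F0) ∈ B := by
      rw [← hτB, RingEquiv.apply_symm_apply]
      exact c.2
    have := hb ⟨τ.symm (c : F0), hc⟩
    rw [h]
    have e : (c : F0) * τ (b : F0) = τ (((⟨τ.symm (c : F0), hc⟩ : B) : F0) * (b : F0)) := by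
      rw [map_mul, RingEquiv.apply_symm_apply]
    rw [e]
    exact (hτV _).2 this

/-- `τ_B⁻¹ (P') = P`. -/
theorem twfw_lg_P_comap (B : Subalgebra A0 F0) (V V' : ValuationSubring F0)
    (hτB : ∀ z, τ z ∈ B ↔ z ∈ B) (hτV : ∀ z, τ z ∈ V'.nonunits ↔ z ∈ V.nonunits) :
    (ssm_tp_P B V').comap (s35ti_restrict τ B hτB : B →+* B) = ssm_tp_P B V := by
  ext b
  rw [Ideal.mem_comap]
  exact twfw_lg_P_swap τ B V V' hτB hτV b _ rfl

/-- an involution-composite preserving a subalgebra: `W (Φ z) ∈ B ↔ z ∈ B` from `Φ z ∈ B ↔ z ∈ B`,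
`W B ⊆ B`, `W ∘ W = id`. -/
theorem twfw_lg_mem_iff_of (Φ W : F0 ≃+* F0) (B : Subalgebra A0 F0)
    (hΦ : ∀ z, Φ z ∈ B ↔ z ∈ B) (hW : ∀ b ∈ B, W b ∈ B) (hWW : ∀ x, W (W x) = x) (z : F0) :
    (Φ.trans W) z ∈ B ↔ z ∈ B := by
  show W (Φ z) ∈ B ↔ z ∈ B
  constructor
  · intro h
    have := hW _ h
    rw [hWW] at this
    exact (hΦ z).1 this
  · intro h
    exact hW _ ((hΦ z).2 h)

end Chart

/-! ### the Legendre tower -/

section Tower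

variable {L : Type*} [Field L] [CharZero L] [Algebra L (AlgebraicClosure ℚ)]
  (O : ValuationSubring L) [IsDiscreteValuationRing O] {π : O} (hπ : Irreducible π)
variable (N' q : ℕ) [NeZero N'] [NeZero q] [hq : Fact q.Prime] [CharP (ResidueField O) q]
  (hq2 : ¬ 2 ∣ q) (hqN' : ¬ q ∣ N')
variable (σ : L ≃+* L) (hσ : s35nf_FrobAt O σ q)

variable (L) in
/-- `τ_W = W ∘ Φ` on `lg_E L (N' q)`. -/
def twfw_lg_tau : ↥(lg_E L (N' * q)) ≃+* ↥(lg_E L (N' * q)) :=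
  (ssm_sg_aut (N' * q) σ).trans (ssm_gl_W L N' q hq2 hqN')

theorem twfw_lg_tau_apply (z : ↥(lg_E L (N' * q))) :
    twfw_lg_tau L N' q hq2 hqN' σ z =
      ssm_gl_W L N' q hq2 hqN' (ssm_sg_aut (N' * q) σ z) :=
  RingEquiv.trans_apply (ssm_sg_aut (N' * q) σ) (ssm_gl_W L N' q hq2 hqN') z

/-- `W` and `Φ` commute. -/
theorem twfw_lg_tau_apply' (z : ↥(lg_E L (N' * q))) :
    twfw_lg_tau L N' q hq2 hqN' σ z =
      ssm_sg_aut (N' * q) σ (ssm_gl_W L N' q hq2 hqN' z) := by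
  rw [twfw_lg_tau_apply]
  exact ssm_sgw_comm L N' q hq.out hq2 hqN' σ z

/-- `W` fixes the constants of `O`. -/
theorem twfw_lg_W_algebraMap (a : ↥O) :
    ssm_gl_W L N' q hq2 hqN' (algebraMap ↥O ↥(lg_E L (N' * q)) a) =
      algebraMap ↥O ↥(lg_E L (N' * q)) a :=
  (ssm_al_WE L N' q hq.out hq2 hqN').commutes (a : L)

/-- `hτbase`: `τ_W` is semilinear over `τ0 = s35nf_base hσ`. -/
theorem twfw_lg_base (a : ↥O) :
    twfw_lg_tau L N' q hq2 hqN' σ (algebraMap ↥O ↥(lg_E L (N' * q)) a) =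
      algebraMap ↥O ↥(lg_E L (N' * q)) (s35nf_base hσ a) := by
  rw [twfw_lg_tau_apply]
  have h1 : ssm_sg_aut (N' * q) σ (algebraMap ↥O ↥(lg_E L (N' * q)) a) =
      algebraMap ↥O ↥(lg_E L (N' * q)) (s35nf_base hσ a) :=
    ssm_sg_aut_algebraMap (N' * q) σ (a : L)
  rw [h1]
  exact twfw_lg_W_algebraMap O N' q hq2 hqN' _

/-- `τ_W` is semilinear over `σ` on `L`. -/
theorem twfw_lg_baseL (a : L) :
    twfw_lg_tau L N' q hq2 hqN' σ (algebraMap L ↥(lg_E L (N' * q)) a) =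
      algebraMap L ↥(lg_E L (N' * q)) (σ a) := by
  rw [twfw_lg_tau_apply, ssm_sg_aut_algebraMap]
  exact (ssm_al_WE L N' q hq.out hq2 hqN').commutes (σ a)

omit [CharZero L] [Algebra L (AlgebraicClosure ℚ)] [IsDiscreteValuationRing ↥O] [NeZero q]
  [CharP (ResidueField ↥O) q] in
/-- `hτ0`: `τ0 a ≡ a^q` modulo the uniformiser. -/
theorem twfw_lg_tau0_dvd {π' : O} (hπ' : maximalIdeal O = Ideal.span {π'}) (a : O) :
    π' ∣ s35nf_base hσ a - a ^ q := by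
  rw [← Ideal.mem_span_singleton, ← hπ', ← residue_eq_zero_iff, map_sub, map_pow, sub_eq_zero]
  exact s35nf_residue hσ a

/-- `τ_W λ = W λ`. -/
theorem twfw_lg_x :
    twfw_lg_tau L N' q hq2 hqN' σ (lg_lamE (N' * q)) =
      ssm_gl_W L N' q hq2 hqN' (lg_lamE (N' * q)) := by
  rw [twfw_lg_tau_apply, ssm_sg_aut_lam]

/-! #### the three charts -/

section Charts

variable (F : ssm_i1_Facts ↥O q (lg_lamE (N' * q) : ↥(lg_E L (N' * q)))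
      (ssm_gl_W L N' q hq2 hqN' (lg_lamE (N' * q))) (ssm_gl_V1 O hπ N' q)
      (ssm_gl_V2 O hπ N' q hq2 hqN'))

set_option synthInstance.maxHeartbeats 200000 in
include F hσ in
/-- `τ_W` preserves the chart `B_λ`. -/
theorem twfw_lg_chart1 (z : ↥(lg_E L (N' * q))) :
    twfw_lg_tau L N' q hq2 hqN' σ z ∈ fc_chart ↥O ({lg_lamE (N' * q)} : Set ↥(lg_E L (N' * q))) ↔
      z ∈ fc_chart ↥O ({lg_lamE (N' * q)} : Set ↥(lg_E L (N' * q))) := by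
  obtain ⟨hWB, -, -⟩ := ssm_i1_W_charts (ssm_gl_W L N' q hq2 hqN')
    (twfw_lg_W_algebraMap O N' q hq2 hqN') rfl F
  exact twfw_lg_mem_iff_of (ssm_sg_aut (N' * q) σ) (ssm_gl_W L N' q hq2 hqN') _
    (s35ti_chart_iff (ssm_sg_aut (N' * q) σ) (s35nf_base hσ)
      (fun a => ssm_sg_aut_algebraMap (N' * q) σ (a : L)) _ (fun s hs => by
        rw [Set.mem_singleton_iff.1 hs]; exact ssm_sg_aut_lam (N' * q) σ))
    hWB (ssm_al_WE_WE L N' q hq.out hq2 hqN') z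

set_option synthInstance.maxHeartbeats 200000 in
include F hσ in
/-- `τ_W` preserves the chart at infinity `B_{λ⁻¹}`. -/
theorem twfw_lg_chart2 (z : ↥(lg_E L (N' * q))) :
    twfw_lg_tau L N' q hq2 hqN' σ z ∈
        fc_chart ↥O ({(lg_lamE (N' * q))⁻¹} : Set ↥(lg_E L (N' * q))) ↔
      z ∈ fc_chart ↥O ({(lg_lamE (N' * q))⁻¹} : Set ↥(lg_E L (N' * q))) := by
  obtain ⟨-, hWB, -⟩ := ssm_i1_W_charts (ssm_gl_W L N' q hq2 hqN')
    (twfw_lg_W_algebraMap O N' q hq2 hqN') rfl F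
  exact twfw_lg_mem_iff_of (ssm_sg_aut (N' * q) σ) (ssm_gl_W L N' q hq2 hqN') _
    (s35ti_chart_iff (ssm_sg_aut (N' * q) σ) (s35nf_base hσ)
      (fun a => ssm_sg_aut_algebraMap (N' * q) σ (a : L)) _ (fun s hs => by
        rw [Set.mem_singleton_iff.1 hs, map_inv₀, ssm_sg_aut_lam]))
    hWB (ssm_al_WE_WE L N' q hq.out hq2 hqN') z

set_option synthInstance.maxHeartbeats 200000 in
include F hσ in
/-- `τ_W` preserves the overlap chart `B_{λ, λ⁻¹}`. -/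
theorem twfw_lg_chart12 (z : ↥(lg_E L (N' * q))) :
    twfw_lg_tau L N' q hq2 hqN' σ z ∈
        fc_chart ↥O ({lg_lamE (N' * q), (lg_lamE (N' * q))⁻¹} : Set ↥(lg_E L (N' * q))) ↔
      z ∈ fc_chart ↥O ({lg_lamE (N' * q), (lg_lamE (N' * q))⁻¹} : Set ↥(lg_E L (N' * q))) := by
  obtain ⟨-, -, hWB⟩ := ssm_i1_W_charts (ssm_gl_W L N' q hq2 hqN')
    (twfw_lg_W_algebraMap O N' q hq2 hqN') rfl F
  exact twfw_lg_mem_iff_of (ssm_sg_aut (N' * q) σ) (ssm_gl_W L N' q hq2 hqN') _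
    (s35ti_chart_iff (ssm_sg_aut (N' * q) σ) (s35nf_base hσ)
      (fun a => ssm_sg_aut_algebraMap (N' * q) σ (a : L)) _ (fun s hs => by
        rcases Set.mem_insert_iff.1 hs with hs | hs
        · rw [hs]; exact ssm_sg_aut_lam (N' * q) σ
        · rw [Set.mem_singleton_iff.1 hs, map_inv₀, ssm_sg_aut_lam]))
    hWB (ssm_al_WE_WE L N' q hq.out hq2 hqN') z

end Charts

/-! #### the two valuation rings are swapped -/

include hσ in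
/-- `τ_W z ∈ V₁ ↔ z ∈ V₂`. -/
theorem twfw_lg_V12 (z : ↥(lg_E L (N' * q))) :
    twfw_lg_tau L N' q hq2 hqN' σ z ∈ ssm_gl_V1 O hπ N' q ↔
      z ∈ ssm_gl_V2 O hπ N' q hq2 hqN' :=
  twfw_lg_swap_mem12 (ssm_sg_aut (N' * q) σ) (ssm_gl_W L N' q hq2 hqN') (ssm_gl_V1 O hπ N' q)
    (fun z => ssm_sgw_comm L N' q hq.out hq2 hqN' σ z)
    (s35ti_gauss_mem π hπ.ne_zero hπ.maximalIdeal_eq _ _ hσ (ssm_sg_aut (N' * q) σ)
      (fun _ => rfl)) z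

include hσ in
/-- `τ_W z ∈ V₂ ↔ z ∈ V₁`. -/
theorem twfw_lg_V21 (z : ↥(lg_E L (N' * q))) :
    twfw_lg_tau L N' q hq2 hqN' σ z ∈ ssm_gl_V2 O hπ N' q hq2 hqN' ↔
      z ∈ ssm_gl_V1 O hπ N' q :=
  twfw_lg_swap_mem21 (ssm_sg_aut (N' * q) σ) (ssm_gl_W L N' q hq2 hqN') (ssm_gl_V1 O hπ N' q)
    (ssm_al_WE_WE L N' q hq.out hq2 hqN')
    (s35ti_gauss_mem π hπ.ne_zero hπ.maximalIdeal_eq _ _ hσ (ssm_sg_aut (N' * q) σ)
      (fun _ => rfl)) z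

include hσ in
/-- `τ_W z ∈ 𝔪(V₁) ↔ z ∈ 𝔪(V₂)`. -/
theorem twfw_lg_V12m (z : ↥(lg_E L (N' * q))) :
    twfw_lg_tau L N' q hq2 hqN' σ z ∈ (ssm_gl_V1 O hπ N' q).nonunits ↔
      z ∈ (ssm_gl_V2 O hπ N' q hq2 hqN').nonunits :=
  twfw_lg_swap_nonunits12 (ssm_sg_aut (N' * q) σ) (ssm_gl_W L N' q hq2 hqN')
    (ssm_gl_V1 O hπ N' q) (fun z => ssm_sgw_comm L N' q hq.out hq2 hqN' σ z)
    (s35ti_gauss_nonunits π hπ.ne_zero hπ.maximalIdeal_eq _ _ hσ (ssm_sg_aut (N' * q) σ)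
      (fun _ => rfl)) z

include hσ in
/-- `τ_W z ∈ 𝔪(V₂) ↔ z ∈ 𝔪(V₁)`. -/
theorem twfw_lg_V21m (z : ↥(lg_E L (N' * q))) :
    twfw_lg_tau L N' q hq2 hqN' σ z ∈ (ssm_gl_V2 O hπ N' q hq2 hqN').nonunits ↔
      z ∈ (ssm_gl_V1 O hπ N' q).nonunits :=
  twfw_lg_swap_nonunits21 (ssm_sg_aut (N' * q) σ) (ssm_gl_W L N' q hq2 hqN')
    (ssm_gl_V1 O hπ N' q) (ssm_al_WE_WE L N' q hq.out hq2 hqN')
    (s35ti_gauss_nonunits π hπ.ne_zero hπ.maximalIdeal_eq _ _ hσ (ssm_sg_aut (N' * q) σ)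
      (fun _ => rfl)) z

/-! #### the two vertical primes are swapped -/

include hσ in
/-- `b' = τ_W b ⟹ (b' ∈ P₁ ↔ b ∈ P₂)` on every `τ_W`-stable subalgebra `B`. -/
theorem twfw_lg_P12_of (B : Subalgebra ↥O ↥(lg_E L (N' * q)))
    (hτB : ∀ z, twfw_lg_tau L N' q hq2 hqN' σ z ∈ B ↔ z ∈ B) (b b' : B)
    (h : (b' : ↥(lg_E L (N' * q))) = twfw_lg_tau L N' q hq2 hqN' σ (b : ↥(lg_E L (N' * q)))) :
    b' ∈ ssm_tp_P B (ssm_gl_V1 O hπ N' q) ↔ b ∈ ssm_tp_P B (ssm_gl_V2 O hπ N' q hq2 hqN') :=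
  twfw_lg_P_swap (twfw_lg_tau L N' q hq2 hqN' σ) B _ _ hτB
    (twfw_lg_V12m O hπ N' q hq2 hqN' σ hσ) b b' h

include hσ in
/-- `b' = τ_W b ⟹ (b' ∈ P₂ ↔ b ∈ P₁)` on every `τ_W`-stable subalgebra `B`. -/
theorem twfw_lg_P21_of (B : Subalgebra ↥O ↥(lg_E L (N' * q)))
    (hτB : ∀ z, twfw_lg_tau L N' q hq2 hqN' σ z ∈ B ↔ z ∈ B) (b b' : B)
    (h : (b' : ↥(lg_E L (N' * q))) = twfw_lg_tau L N' q hq2 hqN' σ (b : ↥(lg_E L (N' * q)))) :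
    b' ∈ ssm_tp_P B (ssm_gl_V2 O hπ N' q hq2 hqN') ↔ b ∈ ssm_tp_P B (ssm_gl_V1 O hπ N' q) :=
  twfw_lg_P_swap (twfw_lg_tau L N' q hq2 hqN' σ) B _ _ hτB
    (twfw_lg_V21m O hπ N' q hq2 hqN' σ hσ) b b' h

/-! #### the instances on the three charts, in the one-directional shape of `twfw_locAt_chart` -/

section ChartsP

variable (F : ssm_i1_Facts ↥O q (lg_lamE (N' * q) : ↥(lg_E L (N' * q)))
      (ssm_gl_W L N' q hq2 hqN' (lg_lamE (N' * q))) (ssm_gl_V1 O hπ N' q)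
      (ssm_gl_V2 O hπ N' q hq2 hqN'))

set_option synthInstance.maxHeartbeats 200000 in
include F hσ in
/-- `τ_W` swaps `P₁`, `P₂` on the `λ`-chart (`↔`, both directions). -/
theorem twfw_lg_P_chart1
    (b b' : fc_chart ↥O ({lg_lamE (N' * q)} : Set ↥(lg_E L (N' * q))))
    (h : (b' : ↥(lg_E L (N' * q))) = twfw_lg_tau L N' q hq2 hqN' σ (b : ↥(lg_E L (N' * q)))) :
    (b' ∈ ssm_tp_P (fc_chart ↥O ({lg_lamE (N' * q)} : Set ↥(lg_E L (N' * q))))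
        (ssm_gl_V1 O hπ N' q) ↔
      b ∈ ssm_tp_P (fc_chart ↥O ({lg_lamE (N' * q)} : Set ↥(lg_E L (N' * q))))
        (ssm_gl_V2 O hπ N' q hq2 hqN')) ∧
    (b' ∈ ssm_tp_P (fc_chart ↥O ({lg_lamE (N' * q)} : Set ↥(lg_E L (N' * q))))
        (ssm_gl_V2 O hπ N' q hq2 hqN') ↔
      b ∈ ssm_tp_P (fc_chart ↥O ({lg_lamE (N' * q)} : Set ↥(lg_E L (N' * q))))
        (ssm_gl_V1 O hπ N' q)) :=
  ⟨twfw_lg_P12_of O hπ N' q hq2 hqN' σ hσ _ (twfw_lg_chart1 O hπ N' q hq2 hqN' σ hσ F) b b' h,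
    twfw_lg_P21_of O hπ N' q hq2 hqN' σ hσ _ (twfw_lg_chart1 O hπ N' q hq2 hqN' σ hσ F) b b' h⟩

set_option synthInstance.maxHeartbeats 200000 in
include F hσ in
/-- `τ_W` swaps `P₁`, `P₂` on the chart at infinity. -/
theorem twfw_lg_P_chart2
    (b b' : fc_chart ↥O ({(lg_lamE (N' * q))⁻¹} : Set ↥(lg_E L (N' * q))))
    (h : (b' : ↥(lg_E L (N' * q))) = twfw_lg_tau L N' q hq2 hqN' σ (b : ↥(lg_E L (N' * q)))) :
    (b' ∈ ssm_tp_P (fc_chart ↥O ({(lg_lamE (N' * q))⁻¹} : Set ↥(lg_E L (N' * q))))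
        (ssm_gl_V1 O hπ N' q) ↔
      b ∈ ssm_tp_P (fc_chart ↥O ({(lg_lamE (N' * q))⁻¹} : Set ↥(lg_E L (N' * q))))
        (ssm_gl_V2 O hπ N' q hq2 hqN')) ∧
    (b' ∈ ssm_tp_P (fc_chart ↥O ({(lg_lamE (N' * q))⁻¹} : Set ↥(lg_E L (N' * q))))
        (ssm_gl_V2 O hπ N' q hq2 hqN') ↔
      b ∈ ssm_tp_P (fc_chart ↥O ({(lg_lamE (N' * q))⁻¹} : Set ↥(lg_E L (N' * q))))
        (ssm_gl_V1 O hπ N' q)) :=
  ⟨twfw_lg_P12_of O hπ N' q hq2 hqN' σ hσ _ (twfw_lg_chart2 O hπ N' q hq2 hqN' σ hσ F) b b' h,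
    twfw_lg_P21_of O hπ N' q hq2 hqN' σ hσ _ (twfw_lg_chart2 O hπ N' q hq2 hqN' σ hσ F) b b' h⟩

set_option synthInstance.maxHeartbeats 200000 in
include F hσ in
/-- **`hτP1`, `hτP2` of the swap core** (overlap chart): `b' = τ_W b ⟹ (b' ∈ P₁ ↔ b ∈ P₂)` and
`(b' ∈ P₂ ↔ b ∈ P₁)`. -/
theorem twfw_lg_P_chart12
    (b b' : fc_chart ↥O ({lg_lamE (N' * q), (lg_lamE (N' * q))⁻¹} : Set ↥(lg_E L (N' * q))))
    (h : (b' : ↥(lg_E L (N' * q))) = twfw_lg_tau L N' q hq2 hqN' σ (b : ↥(lg_E L (N' * q)))) :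
    (b' ∈ ssm_tp_P (fc_chart ↥O
          ({lg_lamE (N' * q), (lg_lamE (N' * q))⁻¹} : Set ↥(lg_E L (N' * q))))
        (ssm_gl_V1 O hπ N' q) ↔
      b ∈ ssm_tp_P (fc_chart ↥O
          ({lg_lamE (N' * q), (lg_lamE (N' * q))⁻¹} : Set ↥(lg_E L (N' * q))))
        (ssm_gl_V2 O hπ N' q hq2 hqN')) ∧
    (b' ∈ ssm_tp_P (fc_chart ↥O
          ({lg_lamE (N' * q), (lg_lamE (N' * q))⁻¹} : Set ↥(lg_E L (N' * q))))
        (ssm_gl_V2 O hπ N' q hq2 hqN') ↔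
      b ∈ ssm_tp_P (fc_chart ↥O
          ({lg_lamE (N' * q), (lg_lamE (N' * q))⁻¹} : Set ↥(lg_E L (N' * q))))
        (ssm_gl_V1 O hπ N' q)) :=
  ⟨twfw_lg_P12_of O hπ N' q hq2 hqN' σ hσ _ (twfw_lg_chart12 O hπ N' q hq2 hqN' σ hσ F) b b' h,
    twfw_lg_P21_of O hπ N' q hq2 hqN' σ hσ _ (twfw_lg_chart12 O hπ N' q hq2 hqN' σ hσ F) b b' h⟩

/-! #### the nodes -/

set_option synthInstance.maxHeartbeats 200000 in
set_option maxHeartbeats 1600000 in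
include F hσ in
/-- **the nodes**: at every maximal crossing point `𝔫 ⊇ P₁ + P₂` of the chart `B_λ`,
`τ_B⁻¹ 𝔫 = 𝔫` and `τ_B b ≡ b^q mod 𝔫` (`τ_B = s35ti_restrict τ_W B_λ`). -/
theorem twfw_lg_node
    (hprime : Prime (algebraMap ↥O (fc_chart ↥O ({lg_lamE N'} : Set ↥(lg_E L N'))) π))
    (hic : IsIntegrallyClosed (fc_chart ↥O ({lg_lamE N'} : Set ↥(lg_E L N')) ⧸
      (Ideal.span {algebraMap ↥O (fc_chart ↥O ({lg_lamE N'} : Set ↥(lg_E L N'))) π} :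
        Ideal (fc_chart ↥O ({lg_lamE N'} : Set ↥(lg_E L N'))))))
    (𝔫 : Ideal (fc_chart ↥O ({lg_lamE (N' * q)} : Set ↥(lg_E L (N' * q))))) (h𝔫 : 𝔫.IsMaximal)
    (hP1 : ssm_tp_P (fc_chart ↥O ({lg_lamE (N' * q)} : Set ↥(lg_E L (N' * q))))
      (ssm_gl_V1 O hπ N' q) ≤ 𝔫)
    (hP2 : ssm_tp_P (fc_chart ↥O ({lg_lamE (N' * q)} : Set ↥(lg_E L (N' * q))))
      (ssm_gl_V2 O hπ N' q hq2 hqN') ≤ 𝔫) :
    𝔫.comap (s35ti_restrict (twfw_lg_tau L N' q hq2 hqN' σ) _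
        (twfw_lg_chart1 O hπ N' q hq2 hqN' σ hσ F) :
        fc_chart ↥O ({lg_lamE (N' * q)} : Set ↥(lg_E L (N' * q))) →+* _) = 𝔫 ∧
    ∀ b : fc_chart ↥O ({lg_lamE (N' * q)} : Set ↥(lg_E L (N' * q))),
      s35ti_restrict (twfw_lg_tau L N' q hq2 hqN' σ) _
        (twfw_lg_chart1 O hπ N' q hq2 hqN' σ hσ F) b - b ^ q ∈ 𝔫 := by
  obtain ⟨hA, hI⟩ := twfw_nf_leg O hπ N' q hq2 hqN' hprime hic F σ hσ 𝔫 h𝔫 hP1 hP2
  refine ⟨?_, fun b => ?_⟩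
  · ext z
    rw [Ideal.mem_comap, ← hI z, RingEquiv.coe_toRingHom]
    constructor
    · intro hz
      exact ⟨_, hz, twfw_lg_tau_apply N' q hq2 hqN' σ _⟩
    · rintro ⟨m, hm, hmz⟩
      have : s35ti_restrict (twfw_lg_tau L N' q hq2 hqN' σ) _
          (twfw_lg_chart1 O hπ N' q hq2 hqN' σ hσ F) z = m :=
        Subtype.ext ((twfw_lg_tau_apply N' q hq2 hqN' σ _).trans hmz.symm)
      rw [this]
      exact hm
  · obtain ⟨m, hm, hmb⟩ := hA b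
    have : s35ti_restrict (twfw_lg_tau L N' q hq2 hqN' σ) _
        (twfw_lg_chart1 O hπ N' q hq2 hqN' σ hσ F) b - b ^ q = m := by
      apply Subtype.ext
      rw [hmb]
      show twfw_lg_tau L N' q hq2 hqN' σ (b : ↥(lg_E L (N' * q))) - _ = _
      rw [twfw_lg_tau_apply]
      rfl
    rw [this]
    exact hm

set_option synthInstance.maxHeartbeats 200000 in
set_option maxHeartbeats 1600000 in
include F hσ in
/-- **the Frobenius clause of `s35l_NodeAt` for the swap**: `s35l_FrobAt τ_W q 𝔫` at every maximal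
crossing point `𝔫 ⊇ P₁ + P₂` of `B_λ`. -/
theorem twfw_lg_frobAt
    (hprime : Prime (algebraMap ↥O (fc_chart ↥O ({lg_lamE N'} : Set ↥(lg_E L N'))) π))
    (hic : IsIntegrallyClosed (fc_chart ↥O ({lg_lamE N'} : Set ↥(lg_E L N')) ⧸
      (Ideal.span {algebraMap ↥O (fc_chart ↥O ({lg_lamE N'} : Set ↥(lg_E L N'))) π} :
        Ideal (fc_chart ↥O ({lg_lamE N'} : Set ↥(lg_E L N'))))))
    (𝔫 : Ideal (fc_chart ↥O ({lg_lamE (N' * q)} : Set ↥(lg_E L (N' * q))))) (h𝔫 : 𝔫.IsMaximal)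
    (hP1 : ssm_tp_P (fc_chart ↥O ({lg_lamE (N' * q)} : Set ↥(lg_E L (N' * q))))
      (ssm_gl_V1 O hπ N' q) ≤ 𝔫)
    (hP2 : ssm_tp_P (fc_chart ↥O ({lg_lamE (N' * q)} : Set ↥(lg_E L (N' * q))))
      (ssm_gl_V2 O hπ N' q hq2 hqN') ≤ 𝔫) :
    s35l_FrobAt (twfw_lg_tau L N' q hq2 hqN' σ) q 𝔫 :=
  s35ti_frobAt_of_restrict (twfw_lg_tau L N' q hq2 hqN' σ) hq.out.ne_zero 𝔫
    (twfw_lg_chart1 O hπ N' q hq2 hqN' σ hσ F)
    (twfw_lg_node O hπ N' q hq2 hqN' σ hσ F hprime hic 𝔫 h𝔫 hP1 hP2).2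

end ChartsP

end Tower

end Fermat.Agent.TW

end
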