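/-
Project ONE MACHINE (S43), block [F], cell (Z8)-FF (d'), number-field level (helper12): THE CLOSED
POINTS OF THE LEGENDRE MODEL FOR THE SWAP `τ_W = W ∘ Φ`, `Q = q`.  Prefix `twfw_lg_`.
Twin of `S35/ToricInst/LegLoc.lean` (`s35ti_leg_nodeAt`, `s35ti_leg_pts1`).

`L ⊆ Q̄` a number field containing a primitive `N'`-th root of unity, `O` a discrete valuation ring
of `L` with uniformiser `q` odd, `q ∤ N'`, `φ1` a Frobenius lift at `O`, `τ_W = twfw_lg_tau … φ1`: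

* `twfw_lg_facts`   : the integrality facts `ssm_i1_Facts` (= `ssm_fl_facts`, repackaged with the
                      number-field binders), the hypothesis `F` of `LegW.lean`;
* `twfw_lg_nodeAt`  : every maximal crossing point `𝔫 ⊇ P1 + P2` of the chart `B_λ` is a REGULAR
                      NODE FIXED BY `τ_W` with `τ_W b ≡ b^q mod 𝔫` (`s35l_NodeAt q τ_W q P1 P2 𝔫`);
* `twfw_lg_pts1`    : every closed point of `B_λ` is smooth or such a node (= `hpts` of helper10's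
                      `twfw_locAt_chart` on `B_λ`);
* the points at infinity: `s35ti_leg_inf` (τ-free) applies verbatim.
-/
import Mathlib
import Fermat.Agent.S35.ToricInst.LegLoc
import Fermat.Agent.TW.Easy.ToricW.LegW

set_option autoImplicit false
set_option linter.style.haveILetI false
set_option linter.unusedSectionVars false
set_option linter.unusedVariables false

noncomputable section

namespace Fermat.Agent.TW

open Fermat.Agent.SS Fermat.Agent.JT3 Fermat.Agent.S35 IntermediateField ModularCurve IsLocalRing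
  AlgebraicCurve

section NF

variable (L : Type) [Field L] [NumberField L] [Algebra L (AlgebraicClosure ℚ)]
  (O : ValuationSubring L) [IsDiscreteValuationRing O]
variable (N' q : ℕ) [NeZero N'] [NeZero q] [hq : Fact q.Prime] [CharP (ResidueField O) q]
  (hq2 : ¬ 2 ∣ q) (hqN' : ¬ q ∣ N') (hπ : Irreducible ((q : ℕ) : ↥O))
  (ζ : L) (hζ : IsPrimitiveRoot ζ N') (φ1 : L ≃+* L) (hφ1 : s35nf_FrobAt O φ1 q)

include hζ in
set_option synthInstance.maxHeartbeats 400000 in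
set_option maxHeartbeats 3200000 in
/-- the integrality facts of the Legendre tower over a number field. -/
theorem twfw_lg_facts :
    ssm_i1_Facts ↥O q (lg_lamE (N' * q) : ↥(lg_E L (N' * q)))
      (ssm_gl_W L N' q hq2 hqN' (lg_lamE (N' * q))) (ssm_gl_V1 O hπ N' q)
      (ssm_gl_V2 O hπ N' q hq2 hqN') := by
  have hqO : ((q : ℕ) : O) ∈ maximalIdeal O := ssm_fln_q_mem L O q
  have hq2' : q ≠ 2 := ssm_fl_ne_two q hq2
  have hp := ssm_ll_prime L N' hπ q hqO hq2' hqN' ζ hζ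
  exact ssm_fl_facts O hπ N' q hq2 hqN' hp.1

include hζ hφ1 in
set_option synthInstance.maxHeartbeats 400000 in
set_option maxHeartbeats 3200000 in
/-- **the crossing points of `B_λ` are regular nodes fixed by the swap `τ_W`, with
`τ_W b ≡ b^q`.** -/
theorem twfw_lg_nodeAt
    (𝔫 : Ideal (fc_chart ↥O ({lg_lamE (N' * q)} : Set ↥(lg_E L (N' * q))))) (h𝔫 : 𝔫.IsMaximal)
    (hP1 : ssm_tp_P (fc_chart ↥O ({lg_lamE (N' * q)} : Set ↥(lg_E L (N' * q))))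
      (ssm_gl_V1 O hπ N' q) ≤ 𝔫)
    (hP2 : ssm_tp_P (fc_chart ↥O ({lg_lamE (N' * q)} : Set ↥(lg_E L (N' * q))))
      (ssm_gl_V2 O hπ N' q hq2 hqN') ≤ 𝔫) :
    s35l_NodeAt ((q : ℕ) : ↥O) (twfw_lg_tau L N' q hq2 hqN' φ1) q
      (ssm_tp_P (fc_chart ↥O ({lg_lamE (N' * q)} : Set ↥(lg_E L (N' * q))))
        (ssm_gl_V1 O hπ N' q))
      (ssm_tp_P (fc_chart ↥O ({lg_lamE (N' * q)} : Set ↥(lg_E L (N' * q))))
        (ssm_gl_V2 O hπ N' q hq2 hqN')) 𝔫 := by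
  have hqO : ((q : ℕ) : O) ∈ maximalIdeal O := ssm_fln_q_mem L O q
  have hq2' : q ≠ 2 := ssm_fl_ne_two q hq2
  have hp := ssm_ll_prime L N' hπ q hqO hq2' hqN' ζ hζ
  have hic := ssm_ll_ic1 L N' hπ q hqO hq2' hqN' ζ hζ
  have F := ssm_fl_facts O hπ N' q hq2 hqN' hp.1
  letI := ssm_gi_algebra (ssm_al_E_le L N' q)
  haveI := ssm_gt_isScalarTower O (ssm_al_E_le L N' q)
  haveI := ssm_go_isScalarTower O (lg_E L (N' * q))
  have C := ssm_nl_cross O hπ N' q hq2 hqN' hp.1 hic F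
    (fun 𝔫' h1 h2 h3 h4 h5 => ssm_ll_EC L N' hπ q hqO hq2' hqN' 𝔫' h1 h2 h3 h4 h5)
  have hF : s35l_FrobAt (twfw_lg_tau L N' q hq2 hqN' φ1) q 𝔫 :=
    twfw_lg_frobAt O hπ N' q hq2 hqN' φ1 hφ1 F hp.1 hic 𝔫 h𝔫 hP1 hP2
  have hth := ssm_nlb_thick_nf L O N' q hq2 hqN' hπ ζ hζ 𝔫 h𝔫 hP1 hP2
  have e : algebraMap ↥O ↥(lg_E L (N' * q)) ((q : ℕ) : ↥O) = ((q : ℕ) : ↥(lg_E L (N' * q))) :=
    map_natCast _ q
  rw [← e] at hth
  exact s35ti_nodeAt_of_cross C ((q : ℕ) : ↥O) (ssm_cpi_phi_algebraMap _ _)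
    (twfw_lg_tau L N' q hq2 hqN' φ1) q 𝔫 h𝔫 hP1 hP2 hF hth

include hζ hφ1 in
set_option synthInstance.maxHeartbeats 400000 in
set_option maxHeartbeats 3200000 in
/-- **the closed points of `B_λ`**: smooth points and regular nodes fixed by the swap. -/
theorem twfw_lg_pts1
    (𝔫 : Ideal (fc_chart ↥O ({lg_lamE (N' * q)} : Set ↥(lg_E L (N' * q))))) (h𝔫 : 𝔫.IsMaximal)
    (hπ𝔫 : algebraMap ↥O (fc_chart ↥O ({lg_lamE (N' * q)} : Set ↥(lg_E L (N' * q))))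
      ((q : ℕ) : ↥O) ∈ 𝔫) :
    ss_SmoothAt ((q : ℕ) : ↥O) (fc_chart ↥O ({lg_lamE (N' * q)} : Set ↥(lg_E L (N' * q)))) 𝔫 ∨
    s35l_NodeAt ((q : ℕ) : ↥O) (twfw_lg_tau L N' q hq2 hqN' φ1) q
      (ssm_tp_P (fc_chart ↥O ({lg_lamE (N' * q)} : Set ↥(lg_E L (N' * q))))
        (ssm_gl_V1 O hπ N' q))
      (ssm_tp_P (fc_chart ↥O ({lg_lamE (N' * q)} : Set ↥(lg_E L (N' * q))))
        (ssm_gl_V2 O hπ N' q hq2 hqN')) 𝔫 := by
  have hqO : ((q : ℕ) : O) ∈ maximalIdeal O := ssm_fln_q_mem L O q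
  have hq2' : q ≠ 2 := ssm_fl_ne_two q hq2
  have hp := ssm_ll_prime L N' hπ q hqO hq2' hqN' ζ hζ
  have F := ssm_fl_facts O hπ N' q hq2 hqN' hp.1
  have hs := ssm_si_smooth O hπ N' q hq2 hqN' hp.1 hp.2.1
    (ssm_ll_ic1 L N' hπ q hqO hq2' hqN' ζ hζ) (ssm_ll_ic2 L N' hπ q hqO hq2' hqN' ζ hζ)
    (ssm_ll_reg1 L N' hπ q hqO hq2' hqN' ζ hζ) (ssm_ll_reg2 L N' hπ q hqO hq2' hqN' ζ hζ) F
  by_cases h1 : ssm_tp_P (fc_chart ↥O ({lg_lamE (N' * q)} : Set ↥(lg_E L (N' * q))))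
      (ssm_gl_V1 O hπ N' q) ≤ 𝔫
  · by_cases h2 : ssm_tp_P (fc_chart ↥O ({lg_lamE (N' * q)} : Set ↥(lg_E L (N' * q))))
        (ssm_gl_V2 O hπ N' q hq2 hqN') ≤ 𝔫
    · exact Or.inr (twfw_lg_nodeAt L O N' q hq2 hqN' hπ ζ hζ φ1 hφ1 𝔫 h𝔫 h1 h2)
    · exact Or.inl (hs.1 𝔫 h𝔫 hπ𝔫 h2)
  · exact Or.inl (hs.2.1 𝔫 h𝔫 hπ𝔫 h1)

end NF

end Fermat.Agent.TW

end
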