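/-
Project ONE MACHINE, block [F], cell (Z8)-FF (b) (helper10): THE LOCAL FACTORISATION AT A REGULAR
NODE FOR A BRANCH-SWAPPING FROBENIUS (prefix `twfw_`; swap twin of `S35/LocalPhi/NodePt.lean`).

`B ⊆ F0` a chart with two vertical primes `P1, P2 ≤ 𝔫` (`ϖ B = P1 ⊓ P2`, incomparable), `𝔫` a
maximal ideal which is a REGULAR NODE (`u v = ϖ e`, `e ∈ B_𝔫ˣ`, `𝔫 B_𝔫 = (ϖ, u, v)`, `u` a unit at
`P1`, `v` a unit at `P2`), `τ` an automorphism of `F0` with `τ B = B`, `τ P1 ⊆ P2`, `τ P2 ⊆ P1`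
(the two components are SWAPPED), `τ b ≡ b^Q` modulo `𝔫` (`Q ≥ 2`).  For `g ∈ F0ˣ`, a unit at `P1`
and `P2`, `c0` a unit of `B_𝔫`, with `τ g * g^Q * c0 ≡ 1` modulo `ϖ O` and all orders of `g` at the
horizontal primes through `𝔫` divisible by `m`:

  `twfw_locAt_node` : `τ g * g^Q * c0 = (1 + ϖ y) rᵐ`, `s y ∈ B` for some `s ∉ 𝔫`, `r - 1 ∈ ϖ O`.
-/
import Mathlib
import Fermat.Agent.S35.LocalPhi.NodePt
import Fermat.Agent.TW.Easy.ToricW.NearSwap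

set_option autoImplicit false
set_option linter.unusedSectionVars false
set_option linter.style.haveILetI false

namespace Fermat.Agent.TW

open Fermat.Agent.SS Fermat.Agent.JT3 Fermat.Agent.S35 IsLocalRing

universe v

section TauSwap

variable {A0 : Type*} [CommRing A0] {F0 : Type v} [Field F0] [Algebra A0 F0]
variable {B : Subalgebra A0 F0} [IsFractionRing B F0] [IsNoetherianRing B] [IsIntegrallyClosed B]
variable {𝔫 : Ideal B} [h𝔫 : 𝔫.IsPrime]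
variable {τ : F0 ≃+* F0} {Q : ℕ}

/-- `(τ p) = (p')` for prime elements `p, p'` of `R` generating `P R`, `P' R`, when `τ P ⊆ P'`. -/
theorem twfw_tauR_span_swap (hF : s35l_FrobAt τ Q 𝔫) (P P' : Ideal B) [hP : P.IsPrime]
    [hP' : P'.IsPrime] (hP𝔫 : P ≤ 𝔫) (hP'𝔫 : P' ≤ 𝔫)
    (hτP : ∀ b b' : B, (b' : F0) = τ (b : F0) → b ∈ P → b' ∈ P')
    {p p' : ssl_locSub F0 𝔫} (hp : Prime p) (hp' : Prime p')
    (hspan : (Ideal.span {p} : Ideal (ssl_locSub F0 𝔫)) =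
      P.map (algebraMap B (ssl_locSub F0 𝔫)))
    (hspan' : (Ideal.span {p'} : Ideal (ssl_locSub F0 𝔫)) =
      P'.map (algebraMap B (ssl_locSub F0 𝔫))) :
    (Ideal.span {s35l_tauR hF p} : Ideal (ssl_locSub F0 𝔫)) = Ideal.span {p'} := by
  obtain ⟨a, c, hc, h⟩ := (ssl_mem_loc 𝔫).1 p.2
  have haP : a ∈ P := by
    rw [← s35l_mem_map_of_frac 𝔫 P hP𝔫 p hc h, ← hspan]
    exact Ideal.mem_span_singleton_self p
  set a' : B := ⟨τ (a : F0), hF.mem _ a.2⟩ with ha'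
  set c' : B := ⟨τ (c : F0), hF.mem _ c.2⟩ with hc'
  have hc'n : c' ∉ 𝔫 := hF.not_mem hc rfl
  have ha'P : a' ∈ P' := hτP a a' rfl haP
  have hmem : s35l_tauR hF p ∈ P'.map (algebraMap B (ssl_locSub F0 𝔫)) := by
    rw [s35l_mem_map_of_frac 𝔫 P' hP'𝔫 (s35l_tauR hF p) (a := a') (c := c') hc'n (by
      show τ (p : F0) * τ (c : F0) = τ (a : F0)
      rw [← map_mul, h])]
    exact ha'P
  rw [← hspan', Ideal.mem_span_singleton] at hmem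
  obtain ⟨w, hw⟩ := hmem
  have hprime : Prime (s35l_tauR hF p) :=
    (MulEquiv.prime_iff (s35l_tauR hF).toMulEquiv).2 hp
  have hirr := hprime.irreducible
  rw [hw] at hirr
  have hwu : IsUnit w := (hirr.isUnit_or_isUnit rfl).resolve_left hp'.not_isUnit
  rw [hw]
  exact Ideal.span_singleton_mul_right_unit hwu p'

end TauSwap

section NodePt

variable {A0 : Type*} [CommRing A0] {F0 : Type v} [Field F0] [Algebra A0 F0]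
variable {B : Subalgebra A0 F0} [IsFractionRing B F0] [IsNoetherianRing B] [IsIntegrallyClosed B]
variable {π : A0} (𝔫 : Ideal B) [h𝔫 : 𝔫.IsMaximal]
variable {P1 P2 : Ideal B} [hP1 : P1.IsPrime] [hP2 : P2.IsPrime]

/-- **THE LOCAL FACTORISATION AT A REGULAR NODE, SWAPPED COMPONENTS.** -/
theorem twfw_locAt_node (hϖ0 : algebraMap A0 F0 π ≠ 0) (hπ𝔫 : algebraMap A0 B π ∈ 𝔫)
    (hrad : Ideal.span {algebraMap A0 B π} = P1 ⊓ P2) (h12 : ¬ P1 ≤ P2) (h21 : ¬ P2 ≤ P1)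
    (hP1𝔫 : P1 ≤ 𝔫) (hP2𝔫 : P2 ≤ 𝔫) {u v e : F0}
    (huv : u * v = algebraMap A0 F0 π * e)
    (he : ∃ s t : B, s ∉ 𝔫 ∧ t ∉ 𝔫 ∧ (s : F0) * e = t)
    (hu : ∃ s t : B, s ∉ 𝔫 ∧ t ∈ 𝔫 ∧ (s : F0) * u = t)
    (hv : ∃ s t : B, s ∉ 𝔫 ∧ t ∈ 𝔫 ∧ (s : F0) * v = t)
    (hgen : ∀ z ∈ 𝔫, ∃ s c1 c2 c3 : B, s ∉ 𝔫 ∧
      (s : F0) * (z : F0) = algebraMap A0 F0 π * c1 + u * c2 + v * c3)
    (hu1 : ∃ s t : B, s ∉ P1 ∧ t ∉ P1 ∧ (s : F0) * u = t)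
    (hv2 : ∃ s t : B, s ∉ P2 ∧ t ∉ P2 ∧ (s : F0) * v = t)
    (τ : F0 ≃+* F0) {Q : ℕ} (hQ : 2 ≤ Q)
    (hF : haveI : 𝔫.IsPrime := h𝔫.isPrime; s35l_FrobAt τ Q 𝔫)
    (hτP1 : ∀ b b' : B, (b' : F0) = τ (b : F0) → b ∈ P1 → b' ∈ P2)
    (hτP2 : ∀ b b' : B, (b' : F0) = τ (b : F0) → b ∈ P2 → b' ∈ P1)
    {m : ℕ} (hm : m ≠ 0) {g : F0} (hg : g ≠ 0)
    (hg1 : ssl_UnitAt F0 P1 g) (hg2 : ssl_UnitAt F0 P2 g)
    {c0 : F0} (hc0 : ∃ s t : B, s ∉ 𝔫 ∧ t ∉ 𝔫 ∧ (s : F0) * c0 = t)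
    (h4a : τ g * g ^ Q * c0 - 1 ∈ sfc_piO B.toSubring (algebraMap A0 F0 π))
    (hdiv : ∀ 𝔮 : Ideal (ssl_locSub F0 𝔫),
      ssl_Horiz (algebraMap B (ssl_locSub F0 𝔫) (algebraMap A0 B π)) 𝔮 →
      ∃ G : F0, G ≠ 0 ∧ ssl_UnitAt F0 𝔮 (g / G ^ m)) :
    ∃ (r y : F0) (s : B), s ∉ 𝔫 ∧ (s : F0) * y ∈ B ∧
      τ g * g ^ Q * c0 = (1 + algebraMap A0 F0 π * y) * r ^ m ∧
      r - 1 ∈ sfc_piO B.toSubring (algebraMap A0 F0 π) := by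
  haveI h𝔫p : 𝔫.IsPrime := h𝔫.isPrime
  haveI := ssl_loc_isNoetherianRing (F0 := F0) 𝔫
  haveI := ssl_loc_isIntegrallyClosed (F0 := F0) 𝔫
  haveI := ssl_loc_isLocalRing (F0 := F0) 𝔫
  obtain ⟨uR, vR, eR, huR, hvR, heR, huvR, hpu, hpv, hmax, hspanu, hspanv⟩ :=
    s35l_node_ring 𝔫 hϖ0 hrad h12 h21 hP1𝔫 hP2𝔫 huv he hu hv hgen hu1 hv2
  set ϖR := algebraMap B (ssl_locSub F0 𝔫) (algebraMap A0 B π) with hϖR
  haveI : UniqueFactorizationMonoid (ssl_locSub F0 𝔫) := fc_ufd hpu hmax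
  haveI hP1R := s35l_map_isPrime (F0 := F0) 𝔫 P1 hP1𝔫
  haveI hP2R := s35l_map_isPrime (F0 := F0) 𝔫 P2 hP2𝔫
  have hϖcoe : algebraMap (ssl_locSub F0 𝔫) F0 ϖR = algebraMap A0 F0 π := rfl
  haveI hppu : (Ideal.span {uR} : Ideal (ssl_locSub F0 𝔫)).IsPrime :=
    (Ideal.span_singleton_prime hpu.ne_zero).2 hpu
  haveI hppv : (Ideal.span {vR} : Ideal (ssl_locSub F0 𝔫)).IsPrime :=
    (Ideal.span_singleton_prime hpv.ne_zero).2 hpv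
  -- the unit `c0` of `R`
  obtain ⟨c0R, hc0R⟩ : ∃ c0R : (ssl_locSub F0 𝔫)ˣ, ((c0R : ssl_locSub F0 𝔫) : F0) = c0 := by
    obtain ⟨sc, tc, hsc, htc, hc⟩ := hc0
    have hsc0 : (sc : F0) ≠ 0 := by
      intro h0
      apply hsc
      have : sc = 0 := Subtype.ext h0
      rw [this]; exact 𝔫.zero_mem
    have htc0 : (tc : F0) ≠ 0 := by
      intro h0
      apply htc
      have : tc = 0 := Subtype.ext h0
      rw [this]; exact 𝔫.zero_mem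
    have hc00 : c0 ≠ 0 := by
      rintro rfl
      rw [mul_zero] at hc
      exact htc0 hc.symm
    have hcR : c0 ∈ ssl_locSub F0 𝔫 := ssl_loc_mem_of 𝔫 hsc hc
    have hcR' : c0⁻¹ ∈ ssl_locSub F0 𝔫 := ssl_loc_mem_of 𝔫 (s := tc) (t := sc) htc (by
      rw [← hc]; field_simp)
    exact ⟨⟨⟨c0, hcR⟩, ⟨c0⁻¹, hcR'⟩, Subtype.ext (mul_inv_cancel₀ hc00),
      Subtype.ext (inv_mul_cancel₀ hc00)⟩, rfl⟩
  -- `v ∉ (u)`, `u ∉ (v)`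
  have hvu : vR ∉ (Ideal.span {uR} : Ideal (ssl_locSub F0 𝔫)) := by
    rw [hspanu]
    obtain ⟨s, t, hs, ht, h⟩ := hv2
    exact s35l_not_mem_of_unitAt 𝔫 _ ((s35l_unitAt_map_iff 𝔫 P2 hP2𝔫).2
      ⟨t, s, ht, hs, by rw [hvR, mul_comm]; exact h⟩)
  have huv' : uR ∉ (Ideal.span {vR} : Ideal (ssl_locSub F0 𝔫)) := by
    rw [hspanv]
    obtain ⟨s, t, hs, ht, h⟩ := hu1
    exact s35l_not_mem_of_unitAt 𝔫 _ ((s35l_unitAt_map_iff 𝔫 P1 hP1𝔫).2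
      ⟨t, s, ht, hs, by rw [huR, mul_comm]; exact h⟩)
  -- `ϖ = u v e⁻¹`
  have hϖuv : ϖR = uR * (vR * ((eR⁻¹ : (ssl_locSub F0 𝔫)ˣ) : ssl_locSub F0 𝔫)) := by
    rw [← mul_assoc, huvR, mul_assoc, ← Units.val_mul, mul_inv_cancel, Units.val_one, mul_one]
  have hdu : uR ∣ ϖR := ⟨_, hϖuv⟩
  have hdv : vR ∣ ϖR := ⟨uR * ((eR⁻¹ : (ssl_locSub F0 𝔫)ˣ) : ssl_locSub F0 𝔫), by
    rw [hϖuv]; ring⟩
  -- the automorphism of `R`: it swaps `(u)` and `(v)`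
  set τR := s35l_tauR hF with hτR
  have hcompat : ∀ r : ssl_locSub F0 𝔫, τ (algebraMap (ssl_locSub F0 𝔫) F0 r) =
      algebraMap (ssl_locSub F0 𝔫) F0 (τR r) := fun r => rfl
  have hτu : (Ideal.span {τR uR} : Ideal (ssl_locSub F0 𝔫)) = Ideal.span {vR} :=
    twfw_tauR_span_swap hF P2 P1 hP2𝔫 hP1𝔫 hτP2 hpu hpv hspanu hspanv
  have hτv : (Ideal.span {τR vR} : Ideal (ssl_locSub F0 𝔫)) = Ideal.span {uR} :=
    twfw_tauR_span_swap hF P1 P2 hP1𝔫 hP2𝔫 hτP1 hpv hpu hspanv hspanu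
  -- the decomposition `g = ε e₁ᵐ`
  have hgu : ssl_UnitAt F0 (Ideal.span {uR}) g := by
    rw [hspanu]; exact (s35l_unitAt_map_iff 𝔫 P2 hP2𝔫).2 hg2
  have hgv : ssl_UnitAt F0 (Ideal.span {vR}) g := by
    rw [hspanv]; exact (s35l_unitAt_map_iff 𝔫 P1 hP1𝔫).2 hg1
  obtain ⟨ε, e₁, he₁0, he₁u, he₁v, hge⟩ := s35l_decomp (F := F0) (ϖ := ϖR) hpu hpv hdu hdv
    (fun 𝔮 h𝔮 h1 hϖ𝔮 => by
      haveI := h𝔮
      rcases s35l_vert_cases 𝔫 hϖ0 hrad 𝔮 h1 hϖ𝔮 with ⟨-, h4⟩ | ⟨-, h4⟩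
      · right; rw [h4, hspanv]
      · left; rw [h4, hspanu])
    (Or.inr ⟨huv', hvu⟩) m hg hgu hgv hdiv
  -- `f = u₀ r₀ᵐ`
  set u₀ : (ssl_locSub F0 𝔫)ˣ :=
    Units.map (τR : ssl_locSub F0 𝔫 →* ssl_locSub F0 𝔫) ε * ε ^ Q * c0R with hu₀
  have hu₀F : algebraMap (ssl_locSub F0 𝔫) F0 (u₀ : ssl_locSub F0 𝔫) =
      τ (algebraMap (ssl_locSub F0 𝔫) F0 (ε : ssl_locSub F0 𝔫)) *
        algebraMap (ssl_locSub F0 𝔫) F0 (ε : ssl_locSub F0 𝔫) ^ Q * c0 := by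
    rw [hu₀, Units.val_mul, Units.val_mul, Units.val_pow_eq_pow_val, map_mul, map_mul, map_pow,
      ← hc0R]
    rfl
  have hf : τ g * g ^ Q * c0 = (τ e₁ * e₁ ^ Q) ^ m *
      algebraMap (ssl_locSub F0 𝔫) F0 (u₀ : ssl_locSub F0 𝔫) := by
    rw [hu₀F, hge, map_mul, map_pow, mul_pow, mul_pow]
    have h1 : (e₁ ^ m) ^ Q = (e₁ ^ Q) ^ m := by rw [← pow_mul, ← pow_mul, mul_comm]
    rw [h1]
    ring
  -- the congruences on the two branches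
  obtain ⟨hfm1, hfm2⟩ := (s35l_mem_piO_iff hϖ0 hrad h12 h21).1 h4a
  have huF : algebraMap (ssl_locSub F0 𝔫) F0 uR ≠ 0 := ssl_algebraMap_ne_zero hpu.ne_zero
  have hvF : algebraMap (ssl_locSub F0 𝔫) F0 vR ≠ 0 := ssl_algebraMap_ne_zero hpv.ne_zero
  have hϖF : algebraMap (ssl_locSub F0 𝔫) F0 ϖR =
      algebraMap (ssl_locSub F0 𝔫) F0 uR * (algebraMap (ssl_locSub F0 𝔫) F0 vR *
        algebraMap (ssl_locSub F0 𝔫) F0 ((eR⁻¹ : (ssl_locSub F0 𝔫)ˣ) : ssl_locSub F0 𝔫)) := by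
    rw [← map_mul, ← map_mul, ← hϖuv]
  have heinvF : algebraMap (ssl_locSub F0 𝔫) F0 ((eR⁻¹ : (ssl_locSub F0 𝔫)ˣ) : ssl_locSub F0 𝔫) ≠ 0 :=
    ssl_algebraMap_ne_zero (eR⁻¹).ne_zero
  have hcong_u : ssl_MemAt F0 (Ideal.span {uR})
      (((τ e₁ * e₁ ^ Q) ^ m * algebraMap (ssl_locSub F0 𝔫) F0 (u₀ : ssl_locSub F0 𝔫) - 1) /
        algebraMap (ssl_locSub F0 𝔫) F0 uR) := by
    rw [← hf]
    have h1 : (τ g * g ^ Q * c0 - 1) / algebraMap (ssl_locSub F0 𝔫) F0 uR =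
        (τ g * g ^ Q * c0 - 1) / algebraMap A0 F0 π *
          algebraMap (ssl_locSub F0 𝔫) F0
            (vR * ((eR⁻¹ : (ssl_locSub F0 𝔫)ˣ) : ssl_locSub F0 𝔫)) := by
      rw [← hϖcoe, hϖF, map_mul]
      field_simp
    rw [h1, hspanu]
    exact ssl_memAt_mul _ ((s35l_memAt_map_iff 𝔫 P2 hP2𝔫).2 hfm2) (ssl_memAt_algebraMap _ _)
  have hcong_v : ssl_MemAt F0 (Ideal.span {vR})
      (((τ e₁ * e₁ ^ Q) ^ m * algebraMap (ssl_locSub F0 𝔫) F0 (u₀ : ssl_locSub F0 𝔫) - 1) /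
        algebraMap (ssl_locSub F0 𝔫) F0 vR) := by
    rw [← hf]
    have h1 : (τ g * g ^ Q * c0 - 1) / algebraMap (ssl_locSub F0 𝔫) F0 vR =
        (τ g * g ^ Q * c0 - 1) / algebraMap A0 F0 π *
          algebraMap (ssl_locSub F0 𝔫) F0
            (uR * ((eR⁻¹ : (ssl_locSub F0 𝔫)ˣ) : ssl_locSub F0 𝔫)) := by
      rw [← hϖcoe, hϖF, map_mul]
      field_simp
    rw [h1, hspanv]
    exact ssl_memAt_mul _ ((s35l_memAt_map_iff 𝔫 P1 hP1𝔫).2 hfm1) (ssl_memAt_algebraMap _ _)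
  -- the near step
  obtain ⟨s, hsu, hsv⟩ := twfw_near_node (F := F0) hpu hpv hmax hvu huv' τ τR hcompat hτu hτv hQ hm
    (s35l_tauR_frob hF) he₁u he₁v u₀ hcong_u hcong_v
  have hs0 : algebraMap (ssl_locSub F0 𝔫) F0 (s : ssl_locSub F0 𝔫) ≠ 0 :=
    ssl_algebraMap_ne_zero s.ne_zero
  have hsinv : algebraMap (ssl_locSub F0 𝔫) F0 ((s⁻¹ : (ssl_locSub F0 𝔫)ˣ) : ssl_locSub F0 𝔫) =
      (algebraMap (ssl_locSub F0 𝔫) F0 (s : ssl_locSub F0 𝔫))⁻¹ := by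
    have h1 : algebraMap (ssl_locSub F0 𝔫) F0 (s : ssl_locSub F0 𝔫) *
        algebraMap (ssl_locSub F0 𝔫) F0 ((s⁻¹ : (ssl_locSub F0 𝔫)ˣ) : ssl_locSub F0 𝔫) = 1 := by
      rw [← map_mul, ← Units.val_mul, mul_inv_cancel, Units.val_one, map_one]
    exact eq_inv_of_mul_eq_one_right h1
  have hr₀ : τ e₁ * e₁ ^ Q ≠ 0 :=
    mul_ne_zero ((map_ne_zero τ).2 he₁0) (pow_ne_zero Q he₁0)
  -- `r₁ = r₀ / s` at the two vertical primes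
  have hnear2 : ssl_MemAt F0 P2
      ((τ e₁ * e₁ ^ Q / algebraMap (ssl_locSub F0 𝔫) F0 (s : ssl_locSub F0 𝔫) - 1) /
        algebraMap A0 F0 π) := by
    rw [← s35l_memAt_map_iff 𝔫 P2 hP2𝔫, ← hspanu]
    have h1 : (τ e₁ * e₁ ^ Q / algebraMap (ssl_locSub F0 𝔫) F0 (s : ssl_locSub F0 𝔫) - 1) /
        algebraMap A0 F0 π =
        (τ e₁ * e₁ ^ Q - algebraMap (ssl_locSub F0 𝔫) F0 (s : ssl_locSub F0 𝔫)) /
          algebraMap (ssl_locSub F0 𝔫) F0 uR *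
          (algebraMap (ssl_locSub F0 𝔫) F0
            ((eR : ssl_locSub F0 𝔫) * ((s⁻¹ : (ssl_locSub F0 𝔫)ˣ) : ssl_locSub F0 𝔫)) /
            algebraMap (ssl_locSub F0 𝔫) F0 vR) := by
      have h2 : algebraMap (ssl_locSub F0 𝔫) F0 uR * algebraMap (ssl_locSub F0 𝔫) F0 vR =
          algebraMap A0 F0 π * algebraMap (ssl_locSub F0 𝔫) F0 (eR : ssl_locSub F0 𝔫) := by
        rw [← map_mul, huvR, map_mul, hϖcoe]
      have h3 : algebraMap (ssl_locSub F0 𝔫) F0 (eR : ssl_locSub F0 𝔫) ≠ 0 :=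
        ssl_algebraMap_ne_zero eR.ne_zero
      rw [map_mul, hsinv]
      field_simp
      linear_combination (τ e₁ * e₁ ^ Q - algebraMap (ssl_locSub F0 𝔫) F0 (s : ssl_locSub F0 𝔫)) * h2
    rw [h1]
    exact ssl_memAt_mul _ hsu ⟨_, vR, hvu, by
      field_simp⟩
  have hnear1 : ssl_MemAt F0 P1
      ((τ e₁ * e₁ ^ Q / algebraMap (ssl_locSub F0 𝔫) F0 (s : ssl_locSub F0 𝔫) - 1) /
        algebraMap A0 F0 π) := by
    rw [← s35l_memAt_map_iff 𝔫 P1 hP1𝔫, ← hspanv]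
    have h1 : (τ e₁ * e₁ ^ Q / algebraMap (ssl_locSub F0 𝔫) F0 (s : ssl_locSub F0 𝔫) - 1) /
        algebraMap A0 F0 π =
        (τ e₁ * e₁ ^ Q - algebraMap (ssl_locSub F0 𝔫) F0 (s : ssl_locSub F0 𝔫)) /
          algebraMap (ssl_locSub F0 𝔫) F0 vR *
          (algebraMap (ssl_locSub F0 𝔫) F0
            ((eR : ssl_locSub F0 𝔫) * ((s⁻¹ : (ssl_locSub F0 𝔫)ˣ) : ssl_locSub F0 𝔫)) /
            algebraMap (ssl_locSub F0 𝔫) F0 uR) := by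
      have h2 : algebraMap (ssl_locSub F0 𝔫) F0 uR * algebraMap (ssl_locSub F0 𝔫) F0 vR =
          algebraMap A0 F0 π * algebraMap (ssl_locSub F0 𝔫) F0 (eR : ssl_locSub F0 𝔫) := by
        rw [← map_mul, huvR, map_mul, hϖcoe]
      have h3 : algebraMap (ssl_locSub F0 𝔫) F0 (eR : ssl_locSub F0 𝔫) ≠ 0 :=
        ssl_algebraMap_ne_zero eR.ne_zero
      rw [map_mul, hsinv]
      field_simp
      linear_combination (τ e₁ * e₁ ^ Q - algebraMap (ssl_locSub F0 𝔫) F0 (s : ssl_locSub F0 𝔫)) * h2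
    rw [h1]
    exact ssl_memAt_mul _ hsv ⟨_, uR, huv', by
      field_simp⟩
  refine s35l_assemble 𝔫 hϖ0 hπ𝔫 hrad h12 h21 m
    (u₁ := algebraMap (ssl_locSub F0 𝔫) F0 ((u₀ : ssl_locSub F0 𝔫) * (s : ssl_locSub F0 𝔫) ^ m))
    (r₁ := τ e₁ * e₁ ^ Q / algebraMap (ssl_locSub F0 𝔫) F0 (s : ssl_locSub F0 𝔫))
    (div_ne_zero hr₀ hs0) h4a
    (((u₀ : ssl_locSub F0 𝔫) * (s : ssl_locSub F0 𝔫) ^ m : ssl_locSub F0 𝔫)).2 ?_
    (fun _ => hnear1) (fun _ => hnear2)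
  rw [hf, map_mul, map_pow,
    div_pow (τ e₁ * e₁ ^ Q) (algebraMap (ssl_locSub F0 𝔫) F0 (s : ssl_locSub F0 𝔫)) m]
  have := pow_ne_zero m hs0
  field_simp

end NodePt

end Fermat.Agent.TW
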