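/-
Project ONE MACHINE, block [F], cell (Z8)-FF (b') (helper10): THE LOCAL FACTORISATIONS ON A CHART FOR
A COMPONENT-SWAPPING FROBENIUS (prefix `twfw_`; swap twin of `S35/LocalPhi/Main.lean`).

Same chart `B ⊆ F0` as in `s35l_locAt_chart` (two incomparable vertical primes `P1, P2`,
`ϖ B = P1 ⊓ P2`, every closed point `𝔫 ∋ ϖ` smooth or a regular Frobenius-fixed node), but
`τ P1 ⊆ P2`, `τ P2 ⊆ P1`.  For `g ∈ F0ˣ`, a unit at `P1` and `P2`, `c0` a unit at every closed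
point with all orders divisible by `m` (e.g. a unit constant), `τ g * g^Q * c0 ≡ 1` modulo `ϖ O`
and all orders of `g`, `τ g` at the places of `F0 / K` divisible by `m`:

* `twfw_locAt_chart`  : at every `𝔫`, `τ g * g^Q * c0 = (1 + ϖ y) rᵐ`, `s y ∈ B`, `s ∉ 𝔫`,
                        `r - 1 ∈ ϖ O` (= `hloc` of `sfc_main_factor` on the chart `B`);
* `twfw_locAt_chart'` : the same in the form `hloc` of `sfc_main`.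
-/
import Mathlib
import Fermat.Agent.S35.LocalPhi.Main
import Fermat.Agent.TW.Easy.ToricW.NodePtSwap

set_option autoImplicit false
set_option linter.unusedSectionVars false
set_option linter.style.haveILetI false

namespace Fermat.Agent.TW

open Fermat.Agent.SS Fermat.Agent.JT3 Fermat.Agent.S35 IsLocalRing AlgebraicCurve

universe v

section Main

variable {A0 : Type*} [CommRing A0] [IsDomain A0] [IsDiscreteValuationRing A0]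
  {K : Type*} [Field K] [Algebra A0 K] [IsFractionRing A0 K]
  {F0 : Type v} [Field F0] [Algebra A0 F0] [Algebra K F0] [IsScalarTower A0 K F0]
variable {B : Subalgebra A0 F0} [IsFractionRing B F0] [IsNoetherianRing B] [IsIntegrallyClosed B]
variable {π : A0} {P1 P2 : Ideal B} [hP1 : P1.IsPrime] [hP2 : P2.IsPrime]

/-- **THE LOCAL FACTORISATIONS OF `τ g * g^Q * c0` ON THE CHART `B`, SWAPPED COMPONENTS** (factor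
form). -/
theorem twfw_locAt_chart (hπ : Irreducible π) (hϖ0 : algebraMap A0 F0 π ≠ 0)
    (hrad : Ideal.span {algebraMap A0 B π} = P1 ⊓ P2) (h12 : ¬ P1 ≤ P2) (h21 : ¬ P2 ≤ P1)
    (τ : F0 ≃+* F0) {Q : ℕ} (hQ : 2 ≤ Q)
    (hτP1 : ∀ b b' : B, (b' : F0) = τ (b : F0) → b ∈ P1 → b' ∈ P2)
    (hτP2 : ∀ b b' : B, (b' : F0) = τ (b : F0) → b ∈ P2 → b' ∈ P1)
    (hpts : ∀ 𝔫 : Ideal B, 𝔫.IsMaximal → algebraMap A0 B π ∈ 𝔫 →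
      ss_SmoothAt π B 𝔫 ∨ s35l_NodeAt π τ Q P1 P2 𝔫)
    {m : ℕ} (hm : m ≠ 0) {g : F0} (hg : g ≠ 0)
    (hg1 : ssl_UnitAt F0 P1 g) (hg2 : ssl_UnitAt F0 P2 g)
    {c0 : F0} (hc00 : c0 ≠ 0)
    (hc0 : ∀ 𝔫 : Ideal B, 𝔫.IsMaximal → algebraMap A0 B π ∈ 𝔫 →
      ∃ s t : B, s ∉ 𝔫 ∧ t ∉ 𝔫 ∧ (s : F0) * c0 = t)
    (h4a : τ g * g ^ Q * c0 - 1 ∈ sfc_piO B.toSubring (algebraMap A0 F0 π))
    (hord : ∀ P : Place K F0, (m : ℤ) ∣ P.ord g)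
    (hordτ : ∀ P : Place K F0, (m : ℤ) ∣ P.ord (τ g))
    (hordc : ∀ P : Place K F0, (m : ℤ) ∣ P.ord c0)
    (𝔫 : Ideal B) (h𝔫 : 𝔫.IsMaximal) (hπ𝔫 : algebraMap A0 B π ∈ 𝔫) :
    ∃ (r y : F0) (s : B), s ∉ 𝔫 ∧ (s : F0) * y ∈ B ∧
      τ g * g ^ Q * c0 = (1 + algebraMap A0 F0 π * y) * r ^ m ∧
      r - 1 ∈ sfc_piO B.toSubring (algebraMap A0 F0 π) := by
  haveI h𝔫p : 𝔫.IsPrime := h𝔫.isPrime
  haveI := ssl_loc_isNoetherianRing (F0 := F0) 𝔫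
  haveI := ssl_loc_isIntegrallyClosed (F0 := F0) 𝔫
  have hτg : τ g ≠ 0 := (map_ne_zero τ).2 hg
  have hgQ : g ^ Q ≠ 0 := pow_ne_zero Q hg
  have hf0 : τ g * g ^ Q * c0 ≠ 0 := mul_ne_zero (mul_ne_zero hτg hgQ) hc00
  rcases hpts 𝔫 h𝔫 hπ𝔫 with hsm | ⟨hP1𝔫, hP2𝔫, hF, u, v, e, huv, he, hu, hv, hgen, hu1, hv2⟩
  · -- smooth point
    have hordf : ∀ P : Place K F0, (m : ℤ) ∣ P.ord (τ g * g ^ Q * c0) := by
      intro P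
      rw [P.ord_mul (mul_ne_zero hτg hgQ) hc00, P.ord_mul hτg hgQ]
      have h1 : P.ord (g ^ Q) = (Q : ℤ) * P.ord g := by
        have := P.ord_zpow g (Q : ℤ)
        rwa [zpow_natCast] at this
      rw [h1]
      exact dvd_add (dvd_add (hordτ P) (Dvd.dvd.mul_left (hord P) _)) (hordc P)
    exact s35l_locAt_smooth 𝔫 hϖ0 hπ𝔫 hrad h12 h21 hsm hm hf0 h4a fun 𝔮 h𝔮 =>
      ssl_hdiv_of_places (K := K) (R := ssl_locSub F0 𝔫) hπ hf0 m hordf 𝔮 h𝔮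
  · -- regular node
    exact twfw_locAt_node 𝔫 hϖ0 hπ𝔫 hrad h12 h21 hP1𝔫 hP2𝔫 huv he hu hv hgen hu1 hv2 τ hQ hF
      hτP1 hτP2 hm hg hg1 hg2 (hc0 𝔫 h𝔫 hπ𝔫) h4a fun 𝔮 h𝔮 =>
      ssl_hdiv_of_places (K := K) (R := ssl_locSub F0 𝔫) hπ hg m hord 𝔮 h𝔮

/-- **THE LOCAL FACTORISATIONS OF `τ g * g^Q * c0` ON THE CHART `B`, SWAPPED COMPONENTS**, in the
form of the hypothesis `hloc` of `sfc_main`. -/
theorem twfw_locAt_chart' (hπ : Irreducible π) (hϖ0 : algebraMap A0 F0 π ≠ 0)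
    (hrad : Ideal.span {algebraMap A0 B π} = P1 ⊓ P2) (h12 : ¬ P1 ≤ P2) (h21 : ¬ P2 ≤ P1)
    (τ : F0 ≃+* F0) {Q : ℕ} (hQ : 2 ≤ Q)
    (hτP1 : ∀ b b' : B, (b' : F0) = τ (b : F0) → b ∈ P1 → b' ∈ P2)
    (hτP2 : ∀ b b' : B, (b' : F0) = τ (b : F0) → b ∈ P2 → b' ∈ P1)
    (hpts : ∀ 𝔫 : Ideal B, 𝔫.IsMaximal → algebraMap A0 B π ∈ 𝔫 →
      ss_SmoothAt π B 𝔫 ∨ s35l_NodeAt π τ Q P1 P2 𝔫)
    {m : ℕ} (hm : m ≠ 0) {g : F0} (hg : g ≠ 0)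
    (hg1 : ssl_UnitAt F0 P1 g) (hg2 : ssl_UnitAt F0 P2 g)
    {c0 : F0} (hc00 : c0 ≠ 0)
    (hc0 : ∀ 𝔫 : Ideal B, 𝔫.IsMaximal → algebraMap A0 B π ∈ 𝔫 →
      ∃ s t : B, s ∉ 𝔫 ∧ t ∉ 𝔫 ∧ (s : F0) * c0 = t)
    (h4a : τ g * g ^ Q * c0 - 1 ∈ sfc_piO B.toSubring (algebraMap A0 F0 π))
    (hord : ∀ P : Place K F0, (m : ℤ) ∣ P.ord g)
    (hordτ : ∀ P : Place K F0, (m : ℤ) ∣ P.ord (τ g))
    (hordc : ∀ P : Place K F0, (m : ℤ) ∣ P.ord c0) :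
    ∀ 𝔫 : Ideal B, 𝔫.IsMaximal → algebraMap A0 B π ∈ 𝔫 →
      ∃ (b1 : B) (h : F0), b1 ∉ 𝔫 ∧ h ^ m * (τ g * g ^ Q * c0) ∈ B ∧
        h - (b1 : F0) ∈ sfc_piO B.toSubring (algebraMap A0 F0 π) := by
  intro 𝔫 h𝔫 hπ𝔫
  obtain ⟨r, y, s, hs, hsy, hf, hr⟩ := twfw_locAt_chart (K := K) hπ hϖ0 hrad h12 h21 τ hQ hτP1 hτP2
    hpts hm hg hg1 hg2 hc00 hc0 h4a hord hordτ hordc 𝔫 h𝔫 hπ𝔫
  exact sfc_loc_of_factor B π (s35l_hnu 𝔫 hϖ0 hπ𝔫) m hm _ 𝔫 hs hsy hf hr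

end Main

end Fermat.Agent.TW
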