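/-
Project ONE MACHINE (S43), block [F], cell (Z8)-FF (e) (helper12): [L]-φ FOR A COMPONENT-SWAPPING
FROBENIUS, GENERIC FORM (prefix `twfw_lp_`; swap twin of `S35/ToricInst/Generic.lean`).

`A0` a discrete valuation ring with uniformiser `π`, `L = Frac A0` of characteristic zero,
`F0 / L(x)` finite, `x` transcendental, `V1, V2` the two Gauss valuations (`ssm_tp_Hyp`), `τ` an
automorphism of `F0`, semilinear over `L`, SWAPPING `𝔪(V_1)` and `𝔪(V_2)`.  IF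

* every closed point `𝔫 ∋ π` of the chart `B₁ = fc_chart A0 {x}` is a smooth point or a regular
  node fixed by `τ` with `τ b ≡ b^Q` (`s35l_NodeAt`), and
* every closed point `𝔫 ∋ π, x⁻¹` of the chart at infinity `B₂ = fc_chart A0 {x⁻¹}` is smooth,

THEN for every `g' ≠ 0`, a unit at both components, with all orders divisible by `m`, and every
`c0` (a unit at every closed point of `B₁`, all orders divisible by `m`; e.g. a unit constant) with
`τ g' * g'^Q * c0 ≡ 1 mod π O`, the hypothesis `hloc` of `sfc_main` holds for `τ g' * g'^Q * c0` on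
both charts:

* `twfw_lp_of`        : the statement above;
* `twfw_lp_of_const`  : the same for `c0 = algebraMap A0 F0 u`, `u` a unit of `A0`.
-/
import Mathlib
import Fermat.Agent.S35.ToricInst.Generic
import Fermat.Agent.TW.Easy.ToricW.ChartSwap
import Fermat.Agent.JT3.S18.Translate

set_option autoImplicit false
set_option linter.unusedSectionVars false
set_option linter.style.haveILetI false

namespace Fermat.Agent.TW

open Fermat.Agent.SS Fermat.Agent.JT3 Fermat.Agent.S35 IsLocalRing AlgebraicCurve IntermediateField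

universe v

section Main

variable {A0 L : Type*} {F0 : Type v} [CommRing A0] [IsDomain A0] [IsDiscreteValuationRing A0]
  [Field L] [Field F0] [Algebra A0 L] [IsFractionRing A0 L] [CharZero L] [Algebra L F0]
  [Algebra A0 F0] [IsScalarTower A0 L F0]

set_option synthInstance.maxHeartbeats 200000 in
set_option maxHeartbeats 1600000 in
/-- **[L]-φ for a component-swapping Frobenius, generic form.** -/
theorem twfw_lp_of {π : A0} (hπ : Irreducible π) {x : F0} (hx : Transcendental L x)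
    [FiniteDimensional L⟮x⟯ F0] {V1 V2 : ValuationSubring F0}
    (H : ssm_tp_Hyp (algebraMap A0 (Algebra.adjoin A0 ({x} : Set F0)) π) V1 V2)
    (τ : F0 ≃+* F0) (τ0 : L ≃+* L)
    (hτL : ∀ a : L, τ (algebraMap L F0 a) = algebraMap L F0 (τ0 a))
    {Q : ℕ} (hQ : 2 ≤ Q)
    (hτV12 : ∀ z : F0, z ∈ V1.nonunits → τ z ∈ V2.nonunits)
    (hτV21 : ∀ z : F0, z ∈ V2.nonunits → τ z ∈ V1.nonunits)
    (hpts : ∀ 𝔫 : Ideal (fc_chart A0 ({x} : Set F0)), 𝔫.IsMaximal →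
      algebraMap A0 (fc_chart A0 ({x} : Set F0)) π ∈ 𝔫 →
      ss_SmoothAt π (fc_chart A0 ({x} : Set F0)) 𝔫 ∨
        s35l_NodeAt π τ Q (ssm_tp_P (fc_chart A0 ({x} : Set F0)) V1)
          (ssm_tp_P (fc_chart A0 ({x} : Set F0)) V2) 𝔫)
    (hinf : ∀ 𝔫 : Ideal (fc_chart A0 ({x⁻¹} : Set F0)), 𝔫.IsMaximal →
      algebraMap A0 (fc_chart A0 ({x⁻¹} : Set F0)) π ∈ 𝔫 →
      (⟨x⁻¹, fc_x_mem_chart x⁻¹⟩ : fc_chart A0 ({x⁻¹} : Set F0)) ∈ 𝔫 →
      ss_SmoothAt π (fc_chart A0 ({x⁻¹} : Set F0)) 𝔫)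
    {m : ℕ} (hm : m ≠ 0) {g' : F0} (hg'0 : g' ≠ 0)
    (hU1 : tori_UnitV (ssm_tp_P (fc_chart A0 ({x, x⁻¹} : Set F0)) V1) g')
    (hU2 : tori_UnitV (ssm_tp_P (fc_chart A0 ({x, x⁻¹} : Set F0)) V2) g')
    {c0 : F0} (hc00 : c0 ≠ 0)
    (hc0 : ∀ 𝔫 : Ideal (fc_chart A0 ({x} : Set F0)), 𝔫.IsMaximal →
      algebraMap A0 (fc_chart A0 ({x} : Set F0)) π ∈ 𝔫 →
      ∃ s t : fc_chart A0 ({x} : Set F0), s ∉ 𝔫 ∧ t ∉ 𝔫 ∧ (s : F0) * c0 = t)
    (hordc : ∀ P : Place L F0, (m : ℤ) ∣ P.ord c0)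
    (h4a : τ g' * g' ^ Q * c0 - 1 ∈
      sfc_piO (fc_chart A0 ({x, x⁻¹} : Set F0)).toSubring (algebraMap A0 F0 π))
    (hord : ∀ P : Place L F0, (m : ℤ) ∣ P.ord g') :
    tori_LocAt π m (τ g' * g' ^ Q * c0) (fc_chart A0 ({x} : Set F0)) ∧
      tori_LocAt π m (τ g' * g' ^ Q * c0) (fc_chart A0 ({x⁻¹} : Set F0)) := by
  have hx0 : x ≠ 0 := by
    rintro rfl
    exact hx isAlgebraic_zero
  have hxi : Transcendental L x⁻¹ := fun h => hx (IsAlgebraic.inv_iff.mp h)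
  have hxA : Transcendental A0 x := fc_ff_transcendental (L := L) hx
  have hxiA : Transcendental A0 x⁻¹ := fc_ff_transcendental (L := L) hxi
  haveI hfd2 : FiniteDimensional L⟮x⁻¹⟯ F0 := by
    rw [rt_adjoin_inv]; infer_instance
  haveI : IsIntegrallyClosed (Algebra.adjoin A0 ({x} : Set F0)) := fc_ff_isIntegrallyClosed hxA
  haveI : FaithfulSMul (Algebra.adjoin A0 ({x} : Set F0)) F0 :=
    (faithfulSMul_iff_algebraMap_injective _ _).2 Subtype.val_injective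
  haveI : IsIntegrallyClosed (Algebra.adjoin A0 ({x⁻¹} : Set F0)) := fc_ff_isIntegrallyClosed hxiA
  haveI : FaithfulSMul (Algebra.adjoin A0 ({x⁻¹} : Set F0)) F0 :=
    (faithfulSMul_iff_algebraMap_injective _ _).2 Subtype.val_injective
  have H' := ssm_tp_ff_hyp_inv (L := L) hπ hx H
  have hC12 := ssm_tp_ff_chart12 (L := L) hπ hx
  have hC1 := ssm_tp_ff_chart (L := L) hπ hx
  have hC2 := ssm_tp_ff_chart (L := L) hπ hxi
  have hϖ0 : algebraMap A0 F0 π ≠ 0 := H.algebraMap_ne_zero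
  -- the function `f = τ g' * g'^Q * c0`
  have hτg : τ g' ≠ 0 := (map_ne_zero τ).2 hg'0
  have hgQ : g' ^ Q ≠ 0 := pow_ne_zero Q hg'0
  have hf0 : τ g' * g' ^ Q * c0 ≠ 0 := mul_ne_zero (mul_ne_zero hτg hgQ) hc00
  have hordτ : ∀ P : Place L F0, (m : ℤ) ∣ P.ord (τ g') := s35ti_ord_map τ τ0 hτL hord
  have hordf : ∀ P : Place L F0, (m : ℤ) ∣ P.ord (τ g' * g' ^ Q * c0) := by
    intro P
    rw [P.ord_mul (mul_ne_zero hτg hgQ) hc00, P.ord_mul hτg hgQ]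
    have h1 : P.ord (g' ^ Q) = (Q : ℤ) * P.ord g' := by
      have := P.ord_zpow g' (Q : ℤ)
      rwa [zpow_natCast] at this
    rw [h1]
    exact dvd_add (dvd_add (hordτ P) (Dvd.dvd.mul_left (hord P) _)) (hordc P)
  -- the congruence on the three charts
  have h4aV := (H.mem_piO_iff hC12).1 h4a
  have h4a1 : τ g' * g' ^ Q * c0 - 1 ∈
      sfc_piO (fc_chart A0 ({x} : Set F0)).toSubring (algebraMap A0 F0 π) :=
    (H.mem_piO_iff hC1).2 h4aV
  have h4a2 : τ g' * g' ^ Q * c0 - 1 ∈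
      sfc_piO (fc_chart A0 ({x⁻¹} : Set F0)).toSubring (algebraMap A0 F0 π) :=
    (H'.mem_piO_iff hC2).2 h4aV
  -- the chart `B₁`
  have hloc1 : tori_LocAt π m (τ g' * g' ^ Q * c0) (fc_chart A0 ({x} : Set F0)) := by
    haveI := ssm_ths_chart_isFractionRing (A0 := A0) (L := L) x
    haveI := ssm_ths_chart_isNoetherianRing (A0 := A0) (L := L) hx
    haveI := ssm_ths_chart_isIntegrallyClosed (A0 := A0) (L := L) x
    haveI := H.P1_isPrime hC1
    haveI := H.P2_isPrime hC1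
    refine twfw_locAt_chart' (K := L) hπ hϖ0 (H.P_inf hC1 _ rfl) (H.P_not_le12 hC1)
      (H.P_not_le21 hC1) τ hQ ?_ ?_ hpts hm hg'0 ?_ ?_ hc00 hc0 h4a1 hord hordτ hordc
    · intro b b' hb hbP
      rw [H.mem_P1 hC1] at hbP
      rw [H.mem_P2 hC1, hb]
      exact hτV12 _ hbP
    · intro b b' hb hbP
      rw [H.mem_P2 hC1] at hbP
      rw [H.mem_P1 hC1, hb]
      exact hτV21 _ hbP
    · exact s35ti_unitAt_of_unitV
        ((tori_tp_unitV1_iff H hC1).1 ((tori_tp_unitV1_iff H hC12).2 hU1))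
    · exact s35ti_unitAt_of_unitV
        ((tori_tp_unitV2_iff H hC1).1 ((tori_tp_unitV2_iff H hC12).2 hU2))
  refine ⟨hloc1, ?_⟩
  -- the chart at infinity
  have hxS1 : x ∈ sfc_S (fc_chart A0 ({x} : Set F0)).toSubring (algebraMap A0 F0 π) :=
    (H.mem_S_iff hC1).2 ⟨fc_x_mem_chart x,
      H.over1.not_mem_nonunits (sfc_ff_prime_pi hπ hxA).2,
      H.over2.not_mem_nonunits (sfc_ff_prime_pi hπ hxA).2⟩
  have hxS2 : x⁻¹ ∈ sfc_S (fc_chart A0 ({x⁻¹} : Set F0)).toSubring (algebraMap A0 F0 π) :=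
    (H'.mem_S_iff hC2).2 ⟨fc_x_mem_chart x⁻¹,
      H'.over1.not_mem_nonunits (sfc_ff_prime_pi hπ hxiA).2,
      H'.over2.not_mem_nonunits (sfc_ff_prime_pi hπ hxiA).2⟩
  refine s35ti_locAt_chart2 π hx0 hxS1 hxS2 m hm _ hloc1 ?_
  intro 𝔫 h𝔫 hπ𝔫 hy
  haveI := ssm_ths_chart_isFractionRing (A0 := A0) (L := L) x⁻¹
  haveI := ssm_ths_chart_isNoetherianRing (A0 := A0) (L := L) hxi
  haveI := ssm_ths_chart_isIntegrallyClosed (A0 := A0) (L := L) x⁻¹
  haveI := H'.P1_isPrime hC2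
  haveI := H'.P2_isPrime hC2
  exact s35ti_locAt_of_smooth (K := L) hπ hϖ0 (H'.P_inf hC2 _ rfl) (H'.P_not_le12 hC2)
    (H'.P_not_le21 hC2) hm hf0 h4a2 hordf 𝔫 h𝔫 hπ𝔫 (hinf 𝔫 h𝔫 hπ𝔫 hy)

set_option synthInstance.maxHeartbeats 200000 in
set_option maxHeartbeats 1600000 in
/-- **[L]-φ for a component-swapping Frobenius**, with a unit constant `c0 = u`. -/
theorem twfw_lp_of_const {π : A0} (hπ : Irreducible π) {x : F0} (hx : Transcendental L x)
    [FiniteDimensional L⟮x⟯ F0] {V1 V2 : ValuationSubring F0}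
    (H : ssm_tp_Hyp (algebraMap A0 (Algebra.adjoin A0 ({x} : Set F0)) π) V1 V2)
    (τ : F0 ≃+* F0) (τ0 : L ≃+* L)
    (hτL : ∀ a : L, τ (algebraMap L F0 a) = algebraMap L F0 (τ0 a))
    {Q : ℕ} (hQ : 2 ≤ Q)
    (hτV12 : ∀ z : F0, z ∈ V1.nonunits → τ z ∈ V2.nonunits)
    (hτV21 : ∀ z : F0, z ∈ V2.nonunits → τ z ∈ V1.nonunits)
    (hpts : ∀ 𝔫 : Ideal (fc_chart A0 ({x} : Set F0)), 𝔫.IsMaximal →
      algebraMap A0 (fc_chart A0 ({x} : Set F0)) π ∈ 𝔫 →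
      ss_SmoothAt π (fc_chart A0 ({x} : Set F0)) 𝔫 ∨
        s35l_NodeAt π τ Q (ssm_tp_P (fc_chart A0 ({x} : Set F0)) V1)
          (ssm_tp_P (fc_chart A0 ({x} : Set F0)) V2) 𝔫)
    (hinf : ∀ 𝔫 : Ideal (fc_chart A0 ({x⁻¹} : Set F0)), 𝔫.IsMaximal →
      algebraMap A0 (fc_chart A0 ({x⁻¹} : Set F0)) π ∈ 𝔫 →
      (⟨x⁻¹, fc_x_mem_chart x⁻¹⟩ : fc_chart A0 ({x⁻¹} : Set F0)) ∈ 𝔫 →
      ss_SmoothAt π (fc_chart A0 ({x⁻¹} : Set F0)) 𝔫)
    {m : ℕ} (hm : m ≠ 0) {g' : F0} (hg'0 : g' ≠ 0)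
    (hU1 : tori_UnitV (ssm_tp_P (fc_chart A0 ({x, x⁻¹} : Set F0)) V1) g')
    (hU2 : tori_UnitV (ssm_tp_P (fc_chart A0 ({x, x⁻¹} : Set F0)) V2) g')
    {u : A0} (hu : IsUnit u)
    (h4a : τ g' * g' ^ Q * algebraMap A0 F0 u - 1 ∈
      sfc_piO (fc_chart A0 ({x, x⁻¹} : Set F0)).toSubring (algebraMap A0 F0 π))
    (hord : ∀ P : Place L F0, (m : ℤ) ∣ P.ord g') :
    tori_LocAt π m (τ g' * g' ^ Q * algebraMap A0 F0 u) (fc_chart A0 ({x} : Set F0)) ∧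
      tori_LocAt π m (τ g' * g' ^ Q * algebraMap A0 F0 u) (fc_chart A0 ({x⁻¹} : Set F0)) := by
  have hinj : Function.Injective (algebraMap A0 F0) := by
    rw [IsScalarTower.algebraMap_eq A0 L F0]
    exact (algebraMap L F0).injective.comp (IsFractionRing.injective A0 L)
  have hu0 : algebraMap A0 F0 u ≠ 0 := fun h =>
    hu.ne_zero (hinj (by rw [h, map_zero]))
  refine twfw_lp_of (L := L) hπ hx H τ τ0 hτL hQ hτV12 hτV21 hpts hinf hm hg'0 hU1 hU2 hu0 ?_ ?_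
    h4a hord
  · intro 𝔫 h𝔫 _
    refine ⟨1, algebraMap A0 _ u, fun h => h𝔫.ne_top ((Ideal.eq_top_iff_one _).2 h), fun h => ?_,
      ?_⟩
    · exact h𝔫.ne_top (Ideal.eq_top_of_isUnit_mem _ h (hu.map _))
    · rw [OneMemClass.coe_one, one_mul]
      rfl
  · intro P
    rw [IsScalarTower.algebraMap_apply A0 L F0, jk_ord_algebraMap]
    exact dvd_zero _

end Main

end Fermat.Agent.TW
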