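/-
Project ONE MACHINE (S43), block [F], cell (Z8)-FF (e'), number-field level (helper12): [L]-φ FOR THE
SWAP `τ_W = W ∘ Φ` ON THE LEGENDRE TOWER, CLOSED.  Prefix `twfw_lg_`.
Twin of `s35ti_leg_locProvider` (`S35/ToricInst/LegLoc.lean`).

`L ⊆ Q̄` a number field containing a primitive `N'`-th root of unity, `O` a discrete valuation ring
of `L` with uniformiser `q` odd, `q ∤ N'`, `φ1` a Frobenius lift at `O`,
`τ_W = twfw_lg_tau L N' q hq2 hqN' φ1` (`z ↦ W (Φ z)`), `Q = q`.  For every `m ≠ 0`, every `g' ≠ 0`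
which is a unit at both components with all orders divisible by `m`, and every unit `u` of `O` with
`τ_W g' * g'^q * u ≡ 1 mod q O`:

  `twfw_lg_locProv` : the hypothesis `hloc` of `sfc_main` holds for `τ_W g' * g'^q * u` on the two
                      charts `B_λ`, `B_{λ⁻¹}`.
-/
import Mathlib
import Fermat.Agent.TW.Easy.ToricW.LegWLoc
import Fermat.Agent.TW.Easy.ToricW.LocProvW

set_option autoImplicit false
set_option linter.style.haveILetI false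
set_option linter.unusedSectionVars false
set_option linter.unusedVariables false

noncomputable section

namespace Fermat.Agent.TW

open Fermat.Agent.SS Fermat.Agent.JT3 Fermat.Agent.S35 IntermediateField ModularCurve IsLocalRing
  AlgebraicCurve

section NF

variable (L : Type) [Field L] [NumberField L] [Algebra L (AlgebraicClosure ℚ)]
  (O : ValuationSubring L) [IsDiscreteValuationRing O]
variable (N' q : ℕ) [NeZero N'] [NeZero q] [hq : Fact q.Prime] [CharP (ResidueField O) q]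
  (hq2 : ¬ 2 ∣ q) (hqN' : ¬ q ∣ N') (hπ : Irreducible ((q : ℕ) : ↥O))
  (ζ : L) (hζ : IsPrimitiveRoot ζ N') (φ1 : L ≃+* L) (hφ1 : s35nf_FrobAt O φ1 q)

include hζ hφ1 in
set_option synthInstance.maxHeartbeats 400000 in
set_option maxHeartbeats 3200000 in
/-- **[L]-φ for the swap on the Legendre tower** over `(L, O, q)`. -/
theorem twfw_lg_locProv {m : ℕ} (hm : m ≠ 0) {g' : ↥(lg_E L (N' * q))} (hg'0 : g' ≠ 0)
    (hU1 : tori_UnitV (ssm_tp_P (fc_chart ↥O ({lg_lamE (N' * q), (lg_lamE (N' * q))⁻¹} :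
      Set ↥(lg_E L (N' * q)))) (ssm_gl_V1 O hπ N' q)) g')
    (hU2 : tori_UnitV (ssm_tp_P (fc_chart ↥O ({lg_lamE (N' * q), (lg_lamE (N' * q))⁻¹} :
      Set ↥(lg_E L (N' * q)))) (ssm_gl_V2 O hπ N' q hq2 hqN')) g')
    {u : ↥O} (hu : IsUnit u)
    (h4a : twfw_lg_tau L N' q hq2 hqN' φ1 g' * g' ^ q * algebraMap ↥O ↥(lg_E L (N' * q)) u - 1 ∈
      sfc_piO (fc_chart ↥O ({lg_lamE (N' * q), (lg_lamE (N' * q))⁻¹} :
        Set ↥(lg_E L (N' * q)))).toSubring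
        (algebraMap ↥O ↥(lg_E L (N' * q)) ((q : ℕ) : ↥O)))
    (hord : ∀ P : Place L ↥(lg_E L (N' * q)), (m : ℤ) ∣ P.ord g') :
    tori_LocAt ((q : ℕ) : ↥O) m
        (twfw_lg_tau L N' q hq2 hqN' φ1 g' * g' ^ q * algebraMap ↥O ↥(lg_E L (N' * q)) u)
        (fc_chart ↥O ({lg_lamE (N' * q)} : Set ↥(lg_E L (N' * q)))) ∧
      tori_LocAt ((q : ℕ) : ↥O) m
        (twfw_lg_tau L N' q hq2 hqN' φ1 g' * g' ^ q * algebraMap ↥O ↥(lg_E L (N' * q)) u)
        (fc_chart ↥O ({(lg_lamE (N' * q))⁻¹} : Set ↥(lg_E L (N' * q)))) := by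
  have hqO : ((q : ℕ) : O) ∈ maximalIdeal O := ssm_fln_q_mem L O q
  have hq2' : q ≠ 2 := ssm_fl_ne_two q hq2
  have hp := ssm_ll_prime L N' hπ q hqO hq2' hqN' ζ hζ
  haveI := ssm_go_isScalarTower O (lg_E L (N' * q))
  haveI : FiniteDimensional L⟮(lg_lamE (N' * q) : lg_E L (N' * q))⟯ ↥(lg_E L (N' * q)) :=
    lgf_finite L (N' * q)
  have hx : Transcendental L (lg_lamE (L := L) (N' * q)) :=
    lgf_lam_transcendental L (N' * q) two_ne_zero
  have H := ssm_gl_hyp O hπ N' q hq2 hqN' hp.1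
  exact twfw_lp_of_const (L := L) hπ hx H (twfw_lg_tau L N' q hq2 hqN' φ1) φ1
    (twfw_lg_baseL N' q hq2 hqN' φ1) hq.out.two_le
    (fun z hz => (twfw_lg_V21m O hπ N' q hq2 hqN' φ1 hφ1 z).2 hz)
    (fun z hz => (twfw_lg_V12m O hπ N' q hq2 hqN' φ1 hφ1 z).2 hz)
    (fun 𝔫 h𝔫 hπ𝔫 => twfw_lg_pts1 L O N' q hq2 hqN' hπ ζ hζ φ1 hφ1 𝔫 h𝔫 hπ𝔫)
    (fun 𝔫 h𝔫 hπ𝔫 hμ => s35ti_leg_inf L O N' q hq2 hqN' hπ ζ hζ 𝔫 h𝔫 hπ𝔫 hμ) hm hg'0 hU1 hU2 hu
    h4a hord

end NF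

end Fermat.Agent.TW

end
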