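/-
Project ONE MACHINE (S43), block [F], cell (Z8)-FF, ASSEMBLY (helper12, insurance twin of helper19's
`twfw_leg_toricWNF`): **THE SWAP TORIC IDENTITY `W (Φ g') · g'^q = c · r^m` OVER THE UNRAMIFIED NUMBER
FIELDS, LEGENDRE COVER, CLOSED.**  Prefix `twfw_ff_`.  Twin of `S35/ToricInst/{Leg,LegNF,LegNF1}`.

* `twfw_ff_ToricWAt O hπ N' q hq2 hqN' φ m` : for `g' ≠ 0` in `lg_E L (N' q)` with all orders
  divisible by `m` and constant reductions (`s35_ConstRed`),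
  `W (Φ g') * g'^q = c · r^m` (`W = ssm_gl_W`, `Φ = ssm_sg_aut (N' q) φ`) — helper19's seam
  `twfw_ToricWAt` of finding #4706 VERBATIM;
* `twfw_ff_ToricWNF`, `twfw_ff_ToricWNF1` : `s35_ToricNF` / `s35_ToricNF1` with `s35_ToricAt`
  replaced by `twfw_ff_ToricWAt`;
* `twfw_ff_leg_toricWAt` : `twfw_ff_ToricWAt` over a number-field base `(L, O, q)`, `ζ_{N'} ∈ L`;
* **`twfw_ff_leg_toricWNF : twfw_ff_ToricWNF N' q hq2 hqN'`**, **`twfw_ff_leg_toricWNF1`**.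
-/
import Mathlib
import Fermat.Agent.S35.ToricInst.LegNF1
import Fermat.Agent.TW.Easy.ToricW.LegWProv
import Fermat.Agent.TW.Easy.ToricW.CoreFF

set_option autoImplicit false
set_option linter.style.haveILetI false
set_option linter.unusedSectionVars false
set_option linter.unusedVariables false

noncomputable section

namespace Fermat.Agent.TW

open Fermat.Agent.SS Fermat.Agent.JT3 Fermat.Agent.S35 IntermediateField ModularCurve IsLocalRing
  AlgebraicCurve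

local notation "GQ" => (AlgebraicClosure ℚ ≃ₐ[ℚ] AlgebraicClosure ℚ)
local notation "Qb" => AlgebraicClosure ℚ

section Seam

variable {L : Type*} [Field L] [CharZero L] [Algebra L (AlgebraicClosure ℚ)]
  (O : ValuationSubring L) [IsDiscreteValuationRing O] {π : O} (hπ : Irreducible π)
  (N' q : ℕ) [NeZero N'] [NeZero q] [hq : Fact q.Prime] [CharP (ResidueField O) q]
  (hq2 : ¬ 2 ∣ q) (hqN' : ¬ q ∣ N')

/-- **[TORIC-W]** at `(L, O, φ, m)`: for `g'` with all orders divisible by `m` and constant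
reductions, `W (Φ g') · g'^q = c · r^m`. -/
def twfw_ff_ToricWAt (φ : L ≃+* L) (m : ℕ) : Prop :=
  ∀ g' : ↥(lg_E L (N' * q)), g' ≠ 0 →
    (∀ v : Place L ↥(lg_E L (N' * q)), (m : ℤ) ∣ v.ord g') →
    s35_ConstRed O hπ N' q hq2 hqN' g' →
    ∃ (c : L) (r : ↥(lg_E L (N' * q))), r ≠ 0 ∧
      ssm_gl_W L N' q hq2 hqN' (ssm_sg_aut (N' * q) φ g') * g' ^ q =
        algebraMap L ↥(lg_E L (N' * q)) c * r ^ m

end Seam

section NFSeam

variable (N' q : ℕ) [NeZero N'] [NeZero q] [hq : Fact q.Prime] (hq2 : ¬ 2 ∣ q) (hqN' : ¬ q ∣ N')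

/-- **[TORIC-W] over the unramified number fields** (Legendre cover): `s35_ToricNF` with
`s35_ToricAt` replaced by `twfw_ff_ToricWAt`. -/
def twfw_ff_ToricWNF : Prop :=
  ∀ A : ValuationSubring Qb, A.LiesOverPrime q → ∀ φ : GQ, A.IsFrobeniusAt φ q →
    ∃ T : Finset Qb,
      ∀ L1 : IntermediateField ℚ Qb, FiniteDimensional ℚ L1 → (↑T : Set Qb) ⊆ L1 →
        ∀ [IsDiscreteValuationRing ↥(A.comap (algebraMap ↥L1 Qb))]
          [CharP (ResidueField ↥(A.comap (algebraMap ↥L1 Qb))) q]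
          (hπ : Irreducible ((q : ℕ) : ↥(A.comap (algebraMap ↥L1 Qb)))),
          ∀ φ1 : ↥L1 ≃+* ↥L1, (∀ x : ↥L1, ((φ1 x : ↥L1) : Qb) = φ (x : Qb)) →
            ∀ m : ℕ, ¬ q ∣ m → (∃ ζ : ↥L1, IsPrimitiveRoot ζ m) →
              twfw_ff_ToricWAt (A.comap (algebraMap ↥L1 Qb)) hπ N' q hq2 hqN' φ1 m

/-- **[TORIC-W] over the unramified number fields**, with `T` inertia-fixed (`s35_ToricNF1` with
`s35_ToricAt` replaced by `twfw_ff_ToricWAt`). -/
def twfw_ff_ToricWNF1 : Prop :=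
  ∀ A : ValuationSubring Qb, A.LiesOverPrime q → ∀ φ : GQ, A.IsFrobeniusAt φ q →
    ∃ T : Finset Qb, (∀ t ∈ T, ∀ s ∈ A.inertiaSubgroupIn ℚ, s t = t) ∧
      ∀ L1 : IntermediateField ℚ Qb, FiniteDimensional ℚ L1 → (↑T : Set Qb) ⊆ L1 →
        (∀ x ∈ L1, ∀ s ∈ A.inertiaSubgroupIn ℚ, s x = x) →
        ∀ [IsDiscreteValuationRing ↥(A.comap (algebraMap ↥L1 Qb))]
          [CharP (ResidueField ↥(A.comap (algebraMap ↥L1 Qb))) q]
          (hπ : Irreducible ((q : ℕ) : ↥(A.comap (algebraMap ↥L1 Qb)))),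
          ∀ φ1 : ↥L1 ≃+* ↥L1, (∀ x : ↥L1, ((φ1 x : ↥L1) : Qb) = φ (x : Qb)) →
            ∀ m : ℕ, ¬ q ∣ m → (∃ ζ : ↥L1, IsPrimitiveRoot ζ m) →
              twfw_ff_ToricWAt (A.comap (algebraMap ↥L1 Qb)) hπ N' q hq2 hqN' φ1 m

end NFSeam

section NF

variable (L : Type) [Field L] [NumberField L] [Algebra L (AlgebraicClosure ℚ)]
  (O : ValuationSubring L) [IsDiscreteValuationRing O]
variable (N' q : ℕ) [NeZero N'] [NeZero q] [hq : Fact q.Prime] [CharP (ResidueField O) q]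
  (hq2 : ¬ 2 ∣ q) (hqN' : ¬ q ∣ N') (hπ : Irreducible ((q : ℕ) : ↥O))
  (ζ : L) (hζ : IsPrimitiveRoot ζ N') (φ : L ≃+* L) (hφ : s35nf_FrobAt O φ q)

include hζ hφ in
set_option synthInstance.maxHeartbeats 400000 in
set_option maxHeartbeats 3200000 in
/-- **[TORIC-W] for the Legendre tower** over a number-field base `(L, O, q)`. -/
theorem twfw_ff_leg_toricWAt (m : ℕ) (hm : IsUnit (m : O)) :
    twfw_ff_ToricWAt O hπ N' q hq2 hqN' φ m := by
  intro g' hg'0 hord hred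
  obtain ⟨k1, k2, hk1, hk2, h1, h2⟩ := hred
  have hm0 : m ≠ 0 := by
    rintro rfl
    rw [Nat.cast_zero] at hm
    exact not_isUnit_zero hm
  have hqO : ((q : ℕ) : O) ∈ maximalIdeal O := ssm_fln_q_mem L O q
  have hq2' : q ≠ 2 := ssm_fl_ne_two q hq2
  have hp := ssm_ll_prime L N' hπ q hqO hq2' hqN' ζ hζ
  haveI := ssm_go_isScalarTower O (lg_E L (N' * q))
  haveI := lgf_finite L (N' * q)
  have hx : Transcendental L (lg_lamE (L := L) (N' * q)) :=
    lgf_lam_transcendental L (N' * q) two_ne_zero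
  have H := ssm_gl_hyp O hπ N' q hq2 hqN' hp.1
  have M := s35ti_leg_model L O hπ N' q hq2 hqN' ζ hζ
  have hC := ssm_tp_ff_chart12 (A0 := ↥O) (L := L) hπ hx
  haveI : IsIntegrallyClosed (Algebra.adjoin ↥O ({lg_lamE (N' * q)} : Set ↥(lg_E L (N' * q)))) :=
    fc_ff_isIntegrallyClosed (fc_ff_transcendental (L := L) hx)
  haveI : FaithfulSMul (Algebra.adjoin ↥O ({lg_lamE (N' * q)} : Set ↥(lg_E L (N' * q))))
      ↥(lg_E L (N' * q)) :=
    (faithfulSMul_iff_algebraMap_injective _ _).2 Subtype.val_injective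
  haveI := M.prime1
  haveI := M.prime2
  have hU1 : tori_UnitV (ssm_tp_P (fc_chart ↥O ({lg_lamE (N' * q), (lg_lamE (N' * q))⁻¹} :
      Set ↥(lg_E L (N' * q)))) (ssm_gl_V1 O hπ N' q)) g' :=
    tori_unitV_of_sub_memM (tori_unitV_algebraMap hk1) ((tori_tp_memM1_iff H hC).1 h1)
  have hU2 : tori_UnitV (ssm_tp_P (fc_chart ↥O ({lg_lamE (N' * q), (lg_lamE (N' * q))⁻¹} :
      Set ↥(lg_E L (N' * q)))) (ssm_gl_V2 O hπ N' q hq2 hqN')) g' :=
    tori_unitV_of_sub_memM (tori_unitV_algebraMap hk2) ((tori_tp_memM2_iff H hC).1 h2)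
  obtain ⟨c, r, hr0, hc⟩ := twfw_ff_core (L := L) hπ hx H M
    (twfw_lg_tau L N' q hq2 hqN' φ) (s35nf_base hφ) q
    (twfw_lg_base O N' q hq2 hqN' φ hφ) (twfw_lg_tau0_dvd O q φ hφ hπ.maximalIdeal_eq)
    (fun z hz => (twfw_lg_V21m O hπ N' q hq2 hqN' φ hφ z).2 hz)
    (fun z hz => (twfw_lg_V12m O hπ N' q hq2 hqN' φ hφ z).2 hz)
    m hm hk1 hk2 h1 h2
    (fun u hu h4a => twfw_lg_locProv L O N' q hq2 hqN' hπ ζ hζ φ hφ hm0 hg'0 hU1 hU2 hu h4a hord)
  refine ⟨(c : L), r, hr0, ?_⟩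
  rw [← twfw_lg_tau_apply]
  exact hc

end NF

section Closed

variable (N' q : ℕ) [NeZero N'] [NeZero q] [hq : Fact q.Prime] (hq2 : ¬ 2 ∣ q) (hqN' : ¬ q ∣ N')

set_option synthInstance.maxHeartbeats 200000 in
set_option maxHeartbeats 1600000 in
/-- **[TORIC-W] over the unramified number fields, Legendre cover: CLOSED** (shape of
`s35_ToricNF`; `T := {ζ_{N'}}`). -/
theorem twfw_ff_leg_toricWNF : twfw_ff_ToricWNF N' q hq2 hqN' := by
  intro A hA φ hφ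
  obtain ⟨ζ', hζ'⟩ := HasEnoughRootsOfUnity.exists_primitiveRoot Qb N'
  refine ⟨{ζ'}, fun L1 hfd hT => ?_⟩
  intro _ _ hπ φ1 hφ1 m hqm _
  have hζmem : ζ' ∈ L1 := hT (by simp)
  have hζ : IsPrimitiveRoot (⟨ζ', hζmem⟩ : ↥L1) N' :=
    (IsPrimitiveRoot.map_iff_of_injective (f := algebraMap ↥L1 Qb)
      (FaithfulSMul.algebraMap_injective ↥L1 Qb)).1 hζ'
  haveI : NumberField ↥L1 := { to_charZero := inferInstance, to_finiteDimensional := hfd }
  have hmem := lg_natCast_mem_maximalIdeal A hA ↥L1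
  have hmu : IsUnit ((m : ℕ) : ↥(A.comap (algebraMap ↥L1 Qb))) :=
    lg_isUnit_natCast hmem ((Nat.Prime.coprime_iff_not_dvd hq.out).2 hqm).symm
  have hF := s35ti_frobAt_of_frobenius A φ hφ L1 φ1 hφ1
  exact twfw_ff_leg_toricWAt ↥L1 (A.comap (algebraMap ↥L1 Qb)) N' q hq2 hqN' hπ
    ⟨ζ', hζmem⟩ hζ φ1 hF m hmu

set_option synthInstance.maxHeartbeats 200000 in
set_option maxHeartbeats 1600000 in
/-- **[TORIC-W] over the unramified number fields, Legendre cover, primed form: CLOSED** (shape of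
`s35_ToricNF1`: `T := {ζ_{N'}}` is fixed by the inertia group since `q ∤ N'`; the hypothesis
`∀ x ∈ L1, ∀ s ∈ I_A, s x = x` is not used). -/
theorem twfw_ff_leg_toricWNF1 : twfw_ff_ToricWNF1 N' q hq2 hqN' := by
  classical
  intro A hAq φ hφ
  obtain ⟨ζ', hζ'⟩ := HasEnoughRootsOfUnity.exists_primitiveRoot Qb N'
  refine ⟨{ζ'}, ?_, fun L1 hfd hsub hfix => ?_⟩
  · intro t ht s hs
    rw [Finset.mem_singleton] at ht
    rw [ht]
    exact s35d_root_fixed A q hAq hqN' hζ'.pow_eq_one hs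
  intro _ _ hπ φ1 hφ1 m hqm hζm
  have hζmem : ζ' ∈ L1 := hsub (by simp)
  haveI : NumberField ↥L1 := { to_charZero := inferInstance, to_finiteDimensional := hfd }
  have hζ : IsPrimitiveRoot (⟨ζ', hζmem⟩ : ↥L1) N' :=
    (IsPrimitiveRoot.map_iff_of_injective (f := algebraMap ↥L1 Qb)
      (FaithfulSMul.algebraMap_injective ↥L1 Qb)).1 hζ'
  have hF := s35ti_frobAt_of_frobenius A φ hφ L1 φ1 hφ1
  have hmem := lg_natCast_mem_maximalIdeal A hAq ↥L1
  have hmu : IsUnit ((m : ℕ) : ↥(A.comap (algebraMap ↥L1 Qb))) :=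
    lg_isUnit_natCast hmem ((Nat.Prime.coprime_iff_not_dvd hq.out).2 hqm).symm
  exact twfw_ff_leg_toricWAt ↥L1 (A.comap (algebraMap ↥L1 Qb)) N' q hq2 hqN' hπ
    ⟨ζ', hζmem⟩ hζ φ1 hF m hmu

end Closed

end Fermat.Agent.TW

end
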