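/-
Project ONE MACHINE (S43), block [F], cell (Z8)-J, THE FINAL GLUE AT THE LEVEL OF CLASSES
(helper16; prefix `twfj_`).

**(Z8) CLOSED: `twfj_toricWAll : twf_ToricWAll_stmt`.**  For `A` over an odd prime `q ∤ M`, `φ` a
Frobenius element at `A`, `m ≠ 0` prime to `6 q`: on the `I_A`-fixed `z ∈ J₀(M q)[m]` with
`ν = 0 = δ` at `z` and at `W_q z`, `W_q (φ z) + q z = 0`; hence (GeoSeam's form)
`φ z = ε q (W_q z)` with `ε = -1`.

Proof (twin of helper20's `twft_toric`, Toric/Main.lean): `twft_normal_form` (helper20) gives an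
unramified level `L1 ∋ ζ_M`, `f = c₀ r₀^m bc g1`, `ι g1 = k R^m g'` with `g'` of constant reductions;
the SWAP toric identity over `(L1, φ|L1)` (helper12's `twfw_ff_leg_toricWAt`) gives
`W (Φ g') * g'^q = c r^m`; helper15's `twfc_class_of_ff_W` passes to classes; helper1's
`twf_toricW_of_sep_comm` turns it into GeoSeam's `twf_ToricW_stmt A M hqM m (-1)`.

* `twfj_toricW_at`  : `W_q (φ z) + q z = 0` at `(A, φ)`;
* `twfj_toricW`     : `twf_ToricW_stmt A M hqM m (-1)`;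
* `twfj_toricWAll`  : `twf_ToricWAll_stmt` (the `∀`-closure of GeoSeam, `ε = -1`).
-/
import Mathlib
import Fermat.Agent.TW.Easy.Toric.NormalForm
import Fermat.Agent.TW.Easy.Toric.ClassOfFFW
import Fermat.Agent.TW.Easy.ToricW.LegWToric
import Fermat.Agent.TW.Easy.Asm.ToricWAdapter

set_option autoImplicit false
set_option linter.unusedSectionVars false
set_option linter.unusedVariables false
set_option linter.style.haveILetI false
set_option synthInstance.maxHeartbeats 400000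
set_option maxHeartbeats 1000000

noncomputable section

namespace Fermat.Agent.TW

open ModularCurve AlgebraicCurve IntermediateField IsLocalRing
open Fermat.Agent.JT3 Fermat.Agent.SS Fermat.Agent.S35 Fermat.Agent.S24 Fermat.Agent.S44
  Fermat.Agent.SS2 Fermat.Agent.S43

local notation "Qb" => AlgebraicClosure ℚ
local notation "GQ" => (AlgebraicClosure ℚ ≃ₐ[ℚ] AlgebraicClosure ℚ)

section Glue

variable (A : ValuationSubring Qb) {q : ℕ} [hq : Fact q.Prime] (hA : A.LiesOverPrime q)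
  (M : ℕ) [NeZero M] [NeZero q] [NeZero (M * q)] (hqM : ¬ q ∣ M) (hq2 : ¬ 2 ∣ q)

include hA hq2 in
/-- **(Z8)-J at `(A, φ)`**: on `I_A`-fixed `z ∈ J₀(M q)[m]` with `ν = 0 = δ` at `z` and at
`W_q z`, `W_q (φ z) + q z = 0`. -/
theorem twfj_toricW_at (φ : GQ) (hφ : A.IsFrobeniusAt φ q) {m : ℕ} (hm0 : m ≠ 0)
    (hm6 : Nat.Coprime m 6) (hqm : ¬ q ∣ m)
    (z : JZero (M * q)) (hz : m • z = 0) (hfix : ∀ s ∈ A.inertiaSubgroupIn ℚ, s • z = z)
    (hν : twfr_nu A M q hq.out hqM m z = 0)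
    (hνW : twfr_nu A M q hq.out hqM m (s44w_WJ M q hq.out hqM z) = 0)
    (hδ : twfr_delta A M q m z = 0)
    (hδW : twfr_delta A M q m (s44w_WJ M q hq.out hqM z) = 0) :
    s44w_WJ M q hq.out hqM (φ • z) + q • z = 0 := by
  have hqq : q.Prime := hq.out
  obtain ⟨f, hrep, L1, hlev, -, ⟨ζ, hζ⟩, g1, c₀, r₀, hg1, hc₀, hr₀, hfeq, hordg1, hnf⟩ :=
    twft_normal_form A hA M hqM hq2 hm0 hm6 hqm ∅ (by simp) hz hfix hν hνW hδ hδW
  haveI : NumberField ↥L1 := { to_charZero := inferInstance, to_finiteDimensional := hlev.fd }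
  haveI hdvr : IsDiscreteValuationRing ↥(A.comap (algebraMap ↥L1 Qb)) := hlev.dvr
  have hmem := lg_natCast_mem_maximalIdeal A hA ↥L1
  haveI : CharP (ResidueField ↥(A.comap (algebraMap ↥L1 Qb))) q := ss_nfl_charP_residue hmem
  obtain ⟨k, R, g', hk, hR, hg', hι, hordg', hcr⟩ := hnf hlev.irr
  -- the restriction of `φ`
  set σ1 : ↥L1 ≃ₐ[ℚ] ↥L1 := hlev.res φ hφ.mem_decompositionSubgroup with hσ1
  have hσ1c : ∀ x : ↥L1, algebraMap ↥L1 Qb (σ1 x) = φ (algebraMap ↥L1 Qb x) := fun x =>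
    hlev.res_coe φ hφ.mem_decompositionSubgroup x
  have hmu : IsUnit ((m : ℕ) : ↥(A.comap (algebraMap ↥L1 Qb))) :=
    lg_isUnit_natCast hmem ((Nat.Prime.coprime_iff_not_dvd hqq).2 hqm).symm
  have hF := s35ti_frobAt_of_frobenius A φ hφ L1 σ1.toRingEquiv (fun x => hσ1c x)
  -- the SWAP toric identity over `(L1, φ|L1)`
  have hTor : twfw_ff_ToricWAt (A.comap (algebraMap ↥L1 Qb)) hlev.irr M q hq2 hqM
      σ1.toRingEquiv m :=
    twfw_ff_leg_toricWAt ↥L1 (A.comap (algebraMap ↥L1 Qb)) M q hq2 hqM hlev.irr ζ hζ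
      σ1.toRingEquiv hF m hmu
  obtain ⟨c, r, hr, hid⟩ := hTor g' hg' hordg' hcr
  exact twfc_class_of_ff_W ↥L1 M q hq2 hqM φ σ1 hσ1c hm0 q hrep g1 hg1 hordg1 hc₀ hr₀ hfeq hι hid

include hA in
/-- **(Z8)-J**: GeoSeam's `twf_ToricW_stmt A M hqM m (-1)`. -/
theorem twfj_toricW (hq2' : q ≠ 2) {m : ℕ} (hm0 : m ≠ 0) (hm6 : Nat.Coprime m 6)
    (hqm : ¬ q ∣ m) : twf_ToricW_stmt A M hqM m (-1) :=
  twf_toricW_of_sep_comm A hA M hqM hq2' hm0 hm6 (fun φ hφ z hz hfix h1 h2 h3 h4 =>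
    twfj_toricW_at A hA M hqM
      (fun h => hq2' ((Nat.prime_dvd_prime_iff_eq Nat.prime_two hq.out).1 h).symm)
      φ hφ hm0 hm6 hqm z hz hfix h1 h2 h3 h4)

end Glue

/-! ### the `∀`-closure of GeoSeam -/

section All

/-- a prime `p ≥ 5` is prime to `6`. -/
theorem twfj_coprime_six {p : ℕ} (hp : p.Prime) (hp5 : 5 ≤ p) : Nat.Coprime p 6 := by
  have h2 : ¬ 2 ∣ p := fun h => by
    have := (Nat.prime_dvd_prime_iff_eq Nat.prime_two hp).1 h
    omega
  have h3 : ¬ 3 ∣ p := fun h => by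
    have := (Nat.prime_dvd_prime_iff_eq Nat.prime_three hp).1 h
    omega
  have c2 : Nat.Coprime p 2 := ((Nat.Prime.coprime_iff_not_dvd Nat.prime_two).2 h2).symm
  have c3 : Nat.Coprime p 3 := ((Nat.Prime.coprime_iff_not_dvd Nat.prime_three).2 h3).symm
  have e : (6 : ℕ) = 2 * 3 := by norm_num
  rw [e]
  exact Nat.Coprime.mul_right c2 c3

/-- **(Z8) for all `(M, q, p, A)`**: GeoSeam's `twf_ToricWAll_stmt`, with `ε = -1`. -/
theorem twfj_toricWAll : twf_ToricWAll_stmt := by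
  intro M q _ _ _ hq hqM p hq2' hp hp5 hpq A hA
  have hqp : ¬ q ∣ p := fun h =>
    hpq ((Nat.prime_dvd_prime_iff_eq hq.out hp).1 h).symm
  exact ⟨-1, Or.inr rfl, twfj_toricW A hA M hqM hq2' hp.ne_zero (twfj_coprime_six hp hp5) hqp⟩

end All

end Fermat.Agent.TW
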