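/-
Project ONE MACHINE, block [F], cell (Z8)-FF (b) (helper10): THE NEAR STEP AT A REGULAR NODE FOR A
BRANCH-SWAPPING FROBENIUS (prefix `twfw_ns_`; swap twin of `S35/LocalPhi/Near.lean`).

`R` a noetherian local domain with fraction field `F`, `𝔪 = (u, v)`, `u`, `v` prime; `τ` an
automorphism with `(τ u) = (v)`, `(τ v) = (u)` inducing `z ↦ z^Q` on the residue field (`Q ≥ 2`).
If `e` is a unit at `(u)` and `(v)` and `(τ e * e^Q)ᵐ u₀ ≡ 1` on both branches then the branch
valuations `x, y` of `e` satisfy `y + Q x = 0 = x + Q y`, hence `x = y = 0`; the two branch values of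
`τ e * e^Q` at the node are both `(c_u c_v)^Q`, so they glue: `τ e * e^Q ≡ s` modulo `u R_(u)` and
`v R_(v)` for a unit `s` of `R` (`twfw_near_node`).
-/
import Mathlib
import Fermat.Agent.S35.LocalPhi.Near

set_option autoImplicit false
set_option linter.unusedSectionVars false
set_option linter.style.haveILetI false

namespace Fermat.Agent.TW

open Fermat.Agent.SS Fermat.Agent.JT3 Fermat.Agent.S35 IsLocalRing

section DVR

variable {S S' : Type*} [CommRing S] [IsDomain S] [IsDiscreteValuationRing S]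
  [CommRing S'] [IsDomain S'] [IsDiscreteValuationRing S']

/-- a ring isomorphism of discrete valuation rings preserves the valuation. -/
theorem twfw_ns_addVal_equiv (σ : S ≃+* S') (x : S) :
    IsDiscreteValuationRing.addVal S' (σ x) = IsDiscreteValuationRing.addVal S x := by
  by_cases hx : x = 0
  · rw [hx, map_zero, AddValuation.map_zero, AddValuation.map_zero]
  obtain ⟨ϖ, hϖ⟩ := IsDiscreteValuationRing.exists_irreducible S
  obtain ⟨n, u, hu⟩ := IsDiscreteValuationRing.eq_unit_mul_pow_irreducible hx hϖ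
  have hσϖ : Irreducible (σ ϖ) := (MulEquiv.irreducible_iff (σ : S ≃* S')).2 hϖ
  rw [IsDiscreteValuationRing.addVal_def x u hϖ n hu,
    IsDiscreteValuationRing.addVal_def (σ x) (Units.map (σ : S →* S') u) hσϖ n
      (by rw [hu, map_mul, map_pow]; rfl)]

/-- one branch congruence gives one linear relation between the four branch valuations. -/
theorem twfw_ns_val_eq (σ : S' ≃+* S) {Q m : ℕ} (hm : m ≠ 0) {A T : S} {A₂ T₂ : S'}
    {αu βu αv βv : ℕ} (hαu : IsDiscreteValuationRing.addVal S A = αu)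
    (hβu : IsDiscreteValuationRing.addVal S T = βu)
    (hαv : IsDiscreteValuationRing.addVal S' A₂ = αv)
    (hβv : IsDiscreteValuationRing.addVal S' T₂ = βv) {U : S} (hU : IsUnit U)
    (h : (σ A₂ * A ^ Q) ^ m * U = (σ T₂ * T ^ Q) ^ m) :
    αv + Q * αu = βv + Q * βu := by
  have hνU : IsDiscreteValuationRing.addVal S U = 0 := by
    rw [← hU.unit_spec]
    exact IsDiscreteValuationRing.addVal_eq_zero_of_unit hU.unit
  have hval := congrArg (IsDiscreteValuationRing.addVal S) h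
  rw [AddValuation.map_mul, AddValuation.map_pow, AddValuation.map_pow, AddValuation.map_mul,
    AddValuation.map_mul, AddValuation.map_pow, AddValuation.map_pow, hνU, add_zero,
    twfw_ns_addVal_equiv, twfw_ns_addVal_equiv, hαu, hβu, hαv, hβv] at hval
  have hnat : m * (αv + Q * αu) = m * (βv + Q * βu) := by
    have h1 : ((m * (αv + Q * αu) : ℕ) : ℕ∞) = ((m * (βv + Q * βu) : ℕ) : ℕ∞) := by
      push_cast
      simpa [nsmul_eq_mul, mul_add] using hval
    exact_mod_cast h1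
  exact Nat.eq_of_mul_eq_mul_left (Nat.pos_of_ne_zero hm) hnat

end DVR

section Node

variable {R : Type*} [CommRing R] [IsDomain R] [IsLocalRing R] [IsNoetherianRing R]
  {F : Type*} [Field F] [Algebra R F] [IsFractionRing R F]

omit [IsLocalRing R] [IsNoetherianRing R] [IsDomain R] in
/-- an automorphism carrying `(p)` to `(p')` carries membership in `(p)` to membership in `(p')`. -/
theorem twfw_ns_equiv_mem_span {p p' : R} (τR : R ≃+* R)
    (hτ : Ideal.span {τR p} = Ideal.span {p'}) (z : R) :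
    τR z ∈ (Ideal.span {p'} : Ideal R) ↔ z ∈ (Ideal.span {p} : Ideal R) := by
  have h1 : τR z ∈ (Ideal.span {τR p} : Ideal R) ↔ z ∈ (Ideal.span {p} : Ideal R) := by
    rw [Ideal.mem_span_singleton, Ideal.mem_span_singleton]
    exact map_dvd_iff τR
  rw [← h1, hτ]

/-- **the branch units**: the coupled valuation argument on the two branches. -/
theorem twfw_ns_branch_units {u v : R} (hu : Prime u) (hv : Prime v)
    (hmax : maximalIdeal R = Ideal.span {u, v})
    (hvu : v ∉ (Ideal.span {u} : Ideal R)) (huv : u ∉ (Ideal.span {v} : Ideal R))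
    (τR : R ≃+* R) (hτu : Ideal.span {τR u} = Ideal.span {v})
    (hτv : Ideal.span {τR v} = Ideal.span {u})
    {Q m : ℕ} (hQ : 2 ≤ Q) (hm : m ≠ 0) {a s' a₂ s₂ : R}
    (ha : a ∉ (Ideal.span {u} : Ideal R)) (hs' : s' ∉ (Ideal.span {u} : Ideal R))
    (ha₂ : a₂ ∉ (Ideal.span {v} : Ideal R)) (hs₂ : s₂ ∉ (Ideal.span {v} : Ideal R)) (u₀ : Rˣ)
    (hcong_u : u ∣ (τR a₂ * a ^ Q) ^ m * (u₀ : R) - (τR s₂ * s' ^ Q) ^ m)
    (hcong_v : v ∣ (τR a * a₂ ^ Q) ^ m * (u₀ : R) - (τR s' * s₂ ^ Q) ^ m) :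
    (∃ c : Rˣ, u ∣ a - s' * (c : R)) ∧ ∃ c : Rˣ, v ∣ a₂ - s₂ * (c : R) := by
  haveI hppu : (Ideal.span {u} : Ideal R).IsPrime := (Ideal.span_singleton_prime hu.ne_zero).2 hu
  haveI hppv : (Ideal.span {v} : Ideal R).IsPrime := (Ideal.span_singleton_prime hv.ne_zero).2 hv
  haveI : IsDomain (R ⧸ Ideal.span {u}) := Ideal.Quotient.isDomain _
  haveI : IsDomain (R ⧸ Ideal.span {v}) := Ideal.Quotient.isDomain _
  have hmax' : maximalIdeal R = Ideal.span {v, u} := by rw [hmax, Set.pair_comm]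
  haveI : IsDiscreteValuationRing (R ⧸ Ideal.span {u}) := s35l_quot_isDVR hu hmax hvu
  haveI : IsDiscreteValuationRing (R ⧸ Ideal.span {v}) := s35l_quot_isDVR hv hmax' huv
  set mku := Ideal.Quotient.mk (Ideal.span {u}) with hmku
  set mkv := Ideal.Quotient.mk (Ideal.span {v}) with hmkv
  have hmku0 : ∀ z : R, mku z = 0 ↔ u ∣ z := fun z => by
    rw [hmku, Ideal.Quotient.eq_zero_iff_mem, Ideal.mem_span_singleton]
  have hmkv0 : ∀ z : R, mkv z = 0 ↔ v ∣ z := fun z => by
    rw [hmkv, Ideal.Quotient.eq_zero_iff_mem, Ideal.mem_span_singleton]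
  -- the induced isomorphisms of the branches
  have hmapvu : (Ideal.span {u} : Ideal R) = (Ideal.span {v}).map ((τR : R ≃+* R) : R →+* R) := by
    rw [Ideal.map_span, Set.image_singleton]
    exact hτv.symm
  have hmapuv : (Ideal.span {v} : Ideal R) = (Ideal.span {u}).map ((τR : R ≃+* R) : R →+* R) := by
    rw [Ideal.map_span, Set.image_singleton]
    exact hτu.symm
  set τvu : (R ⧸ Ideal.span {v}) ≃+* (R ⧸ Ideal.span {u}) :=
    Ideal.quotientEquiv (Ideal.span {v}) (Ideal.span {u}) τR hmapvu with hτvu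
  set τuv : (R ⧸ Ideal.span {u}) ≃+* (R ⧸ Ideal.span {v}) :=
    Ideal.quotientEquiv (Ideal.span {u}) (Ideal.span {v}) τR hmapuv with hτuv
  have hτvu_mk : ∀ z : R, τvu (mkv z) = mku (τR z) := fun z => rfl
  have hτuv_mk : ∀ z : R, τuv (mku z) = mkv (τR z) := fun z => rfl
  -- the two equations on the branches
  have hequ : (τvu (mkv a₂) * mku a ^ Q) ^ m * mku (u₀ : R) = (τvu (mkv s₂) * mku s' ^ Q) ^ m := by
    have := (hmku0 _).2 hcong_u
    rw [map_sub, sub_eq_zero] at this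
    simpa [hτvu_mk] using this
  have heqv : (τuv (mku a) * mkv a₂ ^ Q) ^ m * mkv (u₀ : R) = (τuv (mku s') * mkv s₂ ^ Q) ^ m := by
    have := (hmkv0 _).2 hcong_v
    rw [map_sub, sub_eq_zero] at this
    simpa [hτuv_mk] using this
  have hamk : mku a ≠ 0 := fun h0 => ha (Ideal.mem_span_singleton.2 ((hmku0 _).1 h0))
  have hsmk : mku s' ≠ 0 := fun h0 => hs' (Ideal.mem_span_singleton.2 ((hmku0 _).1 h0))
  have ha₂mk : mkv a₂ ≠ 0 := fun h0 => ha₂ (Ideal.mem_span_singleton.2 ((hmkv0 _).1 h0))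
  have hs₂mk : mkv s₂ ≠ 0 := fun h0 => hs₂ (Ideal.mem_span_singleton.2 ((hmkv0 _).1 h0))
  obtain ⟨αu, hαu⟩ := ENat.ne_top_iff_exists.1
    (fun h => hamk (IsDiscreteValuationRing.addVal_eq_top_iff.1 h))
  obtain ⟨βu, hβu⟩ := ENat.ne_top_iff_exists.1
    (fun h => hsmk (IsDiscreteValuationRing.addVal_eq_top_iff.1 h))
  obtain ⟨αv, hαv⟩ := ENat.ne_top_iff_exists.1
    (fun h => ha₂mk (IsDiscreteValuationRing.addVal_eq_top_iff.1 h))
  obtain ⟨βv, hβv⟩ := ENat.ne_top_iff_exists.1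
    (fun h => hs₂mk (IsDiscreteValuationRing.addVal_eq_top_iff.1 h))
  have e1 : αv + Q * αu = βv + Q * βu :=
    twfw_ns_val_eq τvu hm hαu.symm hβu.symm hαv.symm hβv.symm (u₀.isUnit.map mku) hequ
  have e2 : αu + Q * αv = βu + Q * βv :=
    twfw_ns_val_eq τuv hm hαv.symm hβv.symm hαu.symm hβu.symm (u₀.isUnit.map mkv) heqv
  -- `x = y = 0`
  have hx : (αu : ℤ) = βu ∧ (αv : ℤ) = βv := by
    have e1' : ((αv : ℤ) - βv) + Q * ((αu : ℤ) - βu) = 0 := by
      have := congrArg (fun n : ℕ => (n : ℤ)) e1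
      push_cast at this
      linarith
    have e2' : ((αu : ℤ) - βu) + Q * ((αv : ℤ) - βv) = 0 := by
      have := congrArg (fun n : ℕ => (n : ℤ)) e2
      push_cast at this
      linarith
    have hQ' : (2 : ℤ) ≤ Q := by exact_mod_cast hQ
    have key : ((Q : ℤ) ^ 2 - 1) * ((αu : ℤ) - βu) = 0 := by
      have hy : ((αv : ℤ) - βv) = -(Q * ((αu : ℤ) - βu)) := by linarith
      rw [hy] at e2'
      linear_combination -e2'
    have hne : ((Q : ℤ) ^ 2 - 1) ≠ 0 := by nlinarith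
    have hx0 : ((αu : ℤ) - βu) = 0 := (mul_eq_zero.1 key).resolve_left hne
    have hy0 : ((αv : ℤ) - βv) = 0 := by rw [hx0, mul_zero] at e1'; linarith
    exact ⟨by linarith, by linarith⟩
  have hαβu : αu = βu := by exact_mod_cast hx.1
  have hαβv : αv = βv := by exact_mod_cast hx.2
  constructor
  · have hassoc : Associated (mku s') (mku a) := by
      rw [← IsDiscreteValuationRing.addVal_eq_iff_associated, ← hαu, ← hβu, hαβu]
    obtain ⟨cu, hcu⟩ := hassoc
    obtain ⟨c₁, hc₁⟩ := Ideal.Quotient.mk_surjective (cu : R ⧸ Ideal.span {u})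
    have hc₁u : IsUnit c₁ := by
      apply s35l_isUnit_of_mk (I := Ideal.span {u}) hppu.ne_top
      rw [hc₁]; exact cu.isUnit
    refine ⟨hc₁u.unit, ?_⟩
    rw [IsUnit.unit_spec, ← hmku0, map_sub, map_mul, sub_eq_zero, hmku, hc₁]
    exact hcu.symm
  · have hassoc : Associated (mkv s₂) (mkv a₂) := by
      rw [← IsDiscreteValuationRing.addVal_eq_iff_associated, ← hαv, ← hβv, hαβv]
    obtain ⟨cv, hcv⟩ := hassoc
    obtain ⟨c₁, hc₁⟩ := Ideal.Quotient.mk_surjective (cv : R ⧸ Ideal.span {v})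
    have hc₁u : IsUnit c₁ := by
      apply s35l_isUnit_of_mk (I := Ideal.span {v}) hppv.ne_top
      rw [hc₁]; exact cv.isUnit
    refine ⟨hc₁u.unit, ?_⟩
    rw [IsUnit.unit_spec, ← hmkv0, map_sub, map_mul, sub_eq_zero, hmkv, hc₁]
    exact hcv.symm

omit [IsLocalRing R] [IsNoetherianRing R] in
/-- from the congruence in `F` to the divisibility in `R`. -/
theorem twfw_ns_cong_dvd {p : R} (hp : Prime p) {X Y : R} {r₀ : F}
    (hr₀ : r₀ * algebraMap R F X = algebraMap R F Y) {m : ℕ} (u₀ : R)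
    (hcong : ssl_MemAt F (Ideal.span {p})
      ((r₀ ^ m * algebraMap R F u₀ - 1) / algebraMap R F p)) :
    p ∣ Y ^ m * u₀ - X ^ m := by
  have hpF : algebraMap R F p ≠ 0 := ssl_algebraMap_ne_zero hp.ne_zero
  obtain ⟨c', d, hd, h'⟩ := hcong
  have hR : d * (Y ^ m * u₀ - X ^ m) = p * (c' * X ^ m) := by
    apply IsFractionRing.injective R F
    simp only [map_mul, map_sub, map_pow]
    have hkey : r₀ ^ m * algebraMap R F X ^ m = algebraMap R F Y ^ m := by
      rw [← mul_pow, hr₀]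
    have h'' : (r₀ ^ m * algebraMap R F u₀ - 1) * algebraMap R F d =
        algebraMap R F p * algebraMap R F c' := by
      rw [← h']
      field_simp
    linear_combination (algebraMap R F X ^ m) * h'' - (algebraMap R F d * algebraMap R F u₀) * hkey
  have h1 : p ∣ d * (Y ^ m * u₀ - X ^ m) := ⟨_, hR⟩
  rcases hp.dvd_or_dvd h1 with h2 | h2
  · exact absurd (Ideal.mem_span_singleton.2 h2) hd
  · exact h2

omit [IsLocalRing R] [IsNoetherianRing R] in
/-- from the divisibility in `R` to the congruence in `F`. -/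
theorem twfw_ns_cong_mem {p : R} (hp : Prime p) {X Y t : R}
    (hX : X ∉ (Ideal.span {p} : Ideal R)) {r₀ : F}
    (hr₀ : r₀ * algebraMap R F X = algebraMap R F Y) (hdvd : p ∣ Y - t * X) :
    ssl_MemAt F (Ideal.span {p}) ((r₀ - algebraMap R F t) / algebraMap R F p) := by
  have hpF : algebraMap R F p ≠ 0 := ssl_algebraMap_ne_zero hp.ne_zero
  obtain ⟨w, hw⟩ := hdvd
  refine ⟨w, X, hX, ?_⟩
  have h3 : algebraMap R F Y - algebraMap R F t * algebraMap R F X =
      algebraMap R F p * algebraMap R F w := by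
    have := congrArg (algebraMap R F) hw
    simpa only [map_mul, map_sub] using this
  field_simp
  linear_combination h3 + hr₀

/-- **the near step at a regular node, swapped branches**: `τ e * e^Q ≡ s` modulo `u R_(u)` and
modulo `v R_(v)` for a unit `s` of `R`. -/
theorem twfw_near_node {u v : R} (hu : Prime u) (hv : Prime v)
    (hmax : maximalIdeal R = Ideal.span {u, v})
    (hvu : v ∉ (Ideal.span {u} : Ideal R)) (huv : u ∉ (Ideal.span {v} : Ideal R))
    (τ : F ≃+* F) (τR : R ≃+* R)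
    (hcompat : ∀ r : R, τ (algebraMap R F r) = algebraMap R F (τR r))
    (hτu : Ideal.span {τR u} = Ideal.span {v}) (hτv : Ideal.span {τR v} = Ideal.span {u})
    {Q m : ℕ} (hQ : 2 ≤ Q) (hm : m ≠ 0) (hfrob : ∀ r : R, τR r - r ^ Q ∈ maximalIdeal R)
    {e : F} (he_u : ssl_UnitAt F (Ideal.span {u}) e) (he_v : ssl_UnitAt F (Ideal.span {v}) e)
    (u₀ : Rˣ)
    (hcong_u : ssl_MemAt F (Ideal.span {u})
      (((τ e * e ^ Q) ^ m * algebraMap R F (u₀ : R) - 1) / algebraMap R F u))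
    (hcong_v : ssl_MemAt F (Ideal.span {v})
      (((τ e * e ^ Q) ^ m * algebraMap R F (u₀ : R) - 1) / algebraMap R F v)) :
    ∃ s : Rˣ, ssl_MemAt F (Ideal.span {u}) ((τ e * e ^ Q - algebraMap R F (s : R)) /
        algebraMap R F u) ∧
      ssl_MemAt F (Ideal.span {v}) ((τ e * e ^ Q - algebraMap R F (s : R)) / algebraMap R F v) := by
  haveI hppu : (Ideal.span {u} : Ideal R).IsPrime := (Ideal.span_singleton_prime hu.ne_zero).2 hu
  haveI hppv : (Ideal.span {v} : Ideal R).IsPrime := (Ideal.span_singleton_prime hv.ne_zero).2 hv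
  obtain ⟨a, s', ha, hs', h⟩ := he_u
  obtain ⟨a₂, s₂, ha₂, hs₂, h₂⟩ := he_v
  -- transfer of non-membership
  have hτa₂ : τR a₂ ∉ (Ideal.span {u} : Ideal R) := fun hm' =>
    ha₂ ((twfw_ns_equiv_mem_span τR hτv a₂).1 hm')
  have hτs₂ : τR s₂ ∉ (Ideal.span {u} : Ideal R) := fun hm' =>
    hs₂ ((twfw_ns_equiv_mem_span τR hτv s₂).1 hm')
  have hτa : τR a ∉ (Ideal.span {v} : Ideal R) := fun hm' =>
    ha ((twfw_ns_equiv_mem_span τR hτu a).1 hm')
  have hτs' : τR s' ∉ (Ideal.span {v} : Ideal R) := fun hm' =>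
    hs' ((twfw_ns_equiv_mem_span τR hτu s').1 hm')
  -- `τ e` in two ways
  have hτ₂ : τ e * algebraMap R F (τR s₂) = algebraMap R F (τR a₂) := by
    rw [← hcompat, ← hcompat, ← map_mul, h₂]
  have hτ₁ : τ e * algebraMap R F (τR s') = algebraMap R F (τR a) := by
    rw [← hcompat, ← hcompat, ← map_mul, h]
  -- `r₀ = Y_u / X_u = Y_v / X_v`
  have hXu : τR s₂ * s' ^ Q ∉ (Ideal.span {u} : Ideal R) := fun hm' =>
    (hppu.mem_or_mem hm').elim hτs₂ (fun h3 => hs' (hppu.mem_of_pow_mem Q h3))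
  have hXv : τR s' * s₂ ^ Q ∉ (Ideal.span {v} : Ideal R) := fun hm' =>
    (hppv.mem_or_mem hm').elim hτs' (fun h3 => hs₂ (hppv.mem_of_pow_mem Q h3))
  have hru : τ e * e ^ Q * algebraMap R F (τR s₂ * s' ^ Q) =
      algebraMap R F (τR a₂ * a ^ Q) := by
    rw [map_mul, map_mul, map_pow, map_pow, ← hτ₂, ← h, mul_pow]
    ring
  have hrv : τ e * e ^ Q * algebraMap R F (τR s' * s₂ ^ Q) =
      algebraMap R F (τR a * a₂ ^ Q) := by
    rw [map_mul, map_mul, map_pow, map_pow, ← hτ₁, ← h₂, mul_pow]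
    ring
  -- the divisibilities in `R`
  have hdvd_u := twfw_ns_cong_dvd (F := F) hu hru (u₀ : R) hcong_u
  have hdvd_v := twfw_ns_cong_dvd (F := F) hv hrv (u₀ : R) hcong_v
  obtain ⟨⟨cu, wu, hwu⟩, ⟨cv, wv, hwv⟩⟩ := twfw_ns_branch_units hu hv hmax hvu huv τR hτu hτv hQ hm
    ha hs' ha₂ hs₂ u₀ hdvd_u hdvd_v
  -- `u ∣ τ v`, `v ∣ τ u`
  have huτv : u ∣ τR v := by
    have : τR v ∈ (Ideal.span {u} : Ideal R) := by
      rw [← hτv]; exact Ideal.mem_span_singleton_self _
    exact Ideal.mem_span_singleton.1 this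
  have hvτu : v ∣ τR u := by
    have : τR u ∈ (Ideal.span {v} : Ideal R) := by
      rw [← hτu]; exact Ideal.mem_span_singleton_self _
    exact Ideal.mem_span_singleton.1 this
  -- the branch congruences
  have hbu : u ∣ τR a₂ * a ^ Q - (τR (cv : R) * (cu : R) ^ Q) * (τR s₂ * s' ^ Q) := by
    have h1 : u ∣ τR a₂ - τR s₂ * τR (cv : R) := by
      have : τR a₂ - τR s₂ * τR (cv : R) = τR v * τR wv := by
        rw [← map_mul, ← map_mul, ← map_sub, hwv]
      rw [this]
      exact Dvd.dvd.mul_right huτv _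
    have h2 : u ∣ a ^ Q - (s' * (cu : R)) ^ Q :=
      dvd_trans ⟨wu, hwu⟩ (sub_dvd_pow_sub_pow a (s' * (cu : R)) Q)
    have : τR a₂ * a ^ Q - (τR (cv : R) * (cu : R) ^ Q) * (τR s₂ * s' ^ Q) =
        (τR a₂ - τR s₂ * τR (cv : R)) * a ^ Q +
          τR s₂ * τR (cv : R) * (a ^ Q - (s' * (cu : R)) ^ Q) := by ring
    rw [this]
    exact dvd_add (Dvd.dvd.mul_right h1 _) (Dvd.dvd.mul_left h2 _)
  have hbv : v ∣ τR a * a₂ ^ Q - (τR (cu : R) * (cv : R) ^ Q) * (τR s' * s₂ ^ Q) := by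
    have h1 : v ∣ τR a - τR s' * τR (cu : R) := by
      have : τR a - τR s' * τR (cu : R) = τR u * τR wu := by
        rw [← map_mul, ← map_mul, ← map_sub, hwu]
      rw [this]
      exact Dvd.dvd.mul_right hvτu _
    have h2 : v ∣ a₂ ^ Q - (s₂ * (cv : R)) ^ Q :=
      dvd_trans ⟨wv, hwv⟩ (sub_dvd_pow_sub_pow a₂ (s₂ * (cv : R)) Q)
    have : τR a * a₂ ^ Q - (τR (cu : R) * (cv : R) ^ Q) * (τR s' * s₂ ^ Q) =
        (τR a - τR s' * τR (cu : R)) * a₂ ^ Q +
          τR s' * τR (cu : R) * (a₂ ^ Q - (s₂ * (cv : R)) ^ Q) := by ring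
    rw [this]
    exact dvd_add (Dvd.dvd.mul_right h1 _) (Dvd.dvd.mul_left h2 _)
  have hcu := twfw_ns_cong_mem (F := F) hu hXu hru hbu
  have hcv := twfw_ns_cong_mem (F := F) hv hXv hrv hbv
  -- the branch values glue
  obtain ⟨su, hsu⟩ : ∃ su : R, su = τR (cv : R) * (cu : R) ^ Q := ⟨_, rfl⟩
  obtain ⟨sv, hsv⟩ : ∃ sv : R, sv = τR (cu : R) * (cv : R) ^ Q := ⟨_, rfl⟩
  have hdiff : su - sv ∈ maximalIdeal R := by
    have : su - sv = (τR (cv : R) - (cv : R) ^ Q) * (cu : R) ^ Q -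
        (τR (cu : R) - (cu : R) ^ Q) * (cv : R) ^ Q := by rw [hsu, hsv]; ring
    rw [this]
    exact (maximalIdeal R).sub_mem (Ideal.mul_mem_right _ _ (hfrob _))
      (Ideal.mul_mem_right _ _ (hfrob _))
  have hsu_unit : IsUnit su := by
    rw [hsu]
    exact ((cv.isUnit.map (τR : R →* R))).mul (cu.isUnit.pow Q)
  rw [hmax, Ideal.mem_span_pair] at hdiff
  obtain ⟨α, β, hαβ⟩ := hdiff
  obtain ⟨s, hs⟩ : ∃ s : R, s = su - α * u := ⟨_, rfl⟩
  have hs2 : s = sv + β * v := by rw [hs]; linear_combination (-1 : R) * hαβ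
  have hsunit : IsUnit s := by
    by_contra hnu
    have h4 : s ∈ maximalIdeal R := (IsLocalRing.mem_maximalIdeal _).2 hnu
    have hum : u ∈ maximalIdeal R := by rw [hmax]; exact Ideal.subset_span (by simp)
    have h5 : su ∈ maximalIdeal R := by
      have h6 : su = s + α * u := by rw [hs]; ring
      rw [h6]
      exact (maximalIdeal R).add_mem h4 (Ideal.mul_mem_left _ _ hum)
    exact (IsLocalRing.mem_maximalIdeal _).1 h5 hsu_unit
  have huF : algebraMap R F u ≠ 0 := ssl_algebraMap_ne_zero hu.ne_zero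
  have hvF : algebraMap R F v ≠ 0 := ssl_algebraMap_ne_zero hv.ne_zero
  refine ⟨hsunit.unit, ?_, ?_⟩
  · rw [IsUnit.unit_spec]
    have h7 : (τ e * e ^ Q - algebraMap R F s) / algebraMap R F u =
        (τ e * e ^ Q - algebraMap R F (τR (cv : R) * (cu : R) ^ Q)) / algebraMap R F u +
          algebraMap R F α := by
      rw [hs, map_sub, map_mul (algebraMap R F) α u, hsu]
      field_simp
      ring
    rw [h7]
    exact ssl_memAt_add _ hcu (ssl_memAt_algebraMap _ α)
  · rw [IsUnit.unit_spec]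
    have h7 : (τ e * e ^ Q - algebraMap R F s) / algebraMap R F v =
        (τ e * e ^ Q - algebraMap R F (τR (cu : R) * (cv : R) ^ Q)) / algebraMap R F v +
          algebraMap R F (-β) := by
      rw [hs2, map_add, map_mul (algebraMap R F) β v, hsv, map_neg]
      field_simp
      ring
    rw [h7]
    exact ssl_memAt_add _ hcv (ssl_memAt_algebraMap _ (-β))

end Node

end Fermat.Agent.TW
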